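import Fermat.Agent.DeligneSerre.WeightTwo.ZetaSeries
import Fermat.Agent.DeligneSerre.Nebentypus
import Fermat.Agent.HeckeFinite.IntMat
import Mathlib.Analysis.SumOverResidueClass

/-!
# The weight one Eisenstein series of an odd character of prime-power free level

For `v = (v₀, v₁) ∈ (ℤ/l)²` the function `zv l v t = zetaT t (x t + y) - x`, `x = v₀/l`, `y = v₁/l`,
is of weight one and `SL₂(ℤ)` permutes them. For an odd character `χ` mod `l`,
`eisRaw χ = ∑ χ(a) zv (a, 0) ∣ (l 0; 0 1)` has nebentypus `χ` on `Γ₀(l)` and the expansion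
`-∑ χ(a) a/l + 2 ∑ₙ (∑_{d ∣ n} χ d) qⁿ`.
-/

set_option autoImplicit false

noncomputable section

open Complex Filter Topology
open UpperHalfPlane hiding I
open scoped Real MatrixGroups ModularForm Manifold
open Matrix.SpecialLinearGroup (mapGL)

namespace Fermat.Agent.DeligneSerre

variable {l : ℕ} [NeZero l]

theorem zetaT_add_nat (t z : ℂ) (n : ℕ) : zetaT t (z + n) = zetaT t z := by
  induction n with
  | zero => simp
  | succ n ih => rw [Nat.cast_succ, ← add_assoc, zetaT_add_one, ih]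

theorem zetaT_zero (t : ℂ) : zetaT t 0 = 0 := by
  have h := zetaT_neg (t := t) (z := 0)
  rw [neg_zero] at h
  linear_combination h / 2

/-- The representative in `[0, 1)` of `a / l`. -/
def frc (a : ZMod l) : ℝ := (a.val : ℝ) / l

theorem frc_nonneg (a : ZMod l) : 0 ≤ frc a := by unfold frc; positivity

theorem frc_lt_one (a : ZMod l) : frc a < 1 := by
  rw [frc, div_lt_one (by exact_mod_cast NeZero.pos l)]
  exact_mod_cast ZMod.val_lt a

theorem frc_eq_zero_iff {a : ZMod l} : frc a = 0 ↔ a = 0 := by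
  simp [frc, NeZero.ne l, -ZMod.natCast_val, ZMod.val_eq_zero]

theorem frc_add (a b : ZMod l) : ∃ n : ℕ, frc a + frc b = frc (a + b) + n := by
  refine ⟨(a.val + b.val) / l, ?_⟩
  have h : ((a.val + b.val : ℕ) : ℝ) = ((a + b).val : ℝ) + (l : ℝ) * ((a.val + b.val) / l : ℕ) := by
    rw [ZMod.val_add]
    exact_mod_cast (Nat.mod_add_div _ _).symm
  push_cast at h
  have : (l : ℝ) ≠ 0 := by exact_mod_cast NeZero.ne l
  simp only [frc]
  field_simp
  linear_combination h

theorem frc_neg (a : ZMod l) : ∃ n : ℕ, frc a + frc (-a) = n := by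
  obtain ⟨n, hn⟩ := frc_add a (-a)
  exact ⟨n, by rw [hn, add_neg_cancel, frc_eq_zero_iff.2 rfl, zero_add]⟩

/-- The weight one function attached to `v`. -/
def zv (v : Fin 2 → ZMod l) (t : ℍ) : ℂ :=
  zetaT t ((frc (v 0) : ℂ) * t + (frc (v 1) : ℂ)) - (frc (v 0) : ℂ)

theorem zv_zero : zv (0 : Fin 2 → ZMod l) = 0 := by
  funext t
  simp [zv, frc, zetaT_zero]

theorem zv_slash_T (v : Fin 2 → ZMod l) :
    zv v ∣[(1 : ℤ)] ModularGroup.T = zv ![v 0, v 0 + v 1] := by
  funext t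
  obtain ⟨n, hn⟩ := frc_add (v 0) (v 1)
  have hd : denom (ModularGroup.T : GL (Fin 2) ℝ) (t : ℂ) = 1 := by simp [denom, ModularGroup.T]
  rw [ModularForm.SL_slash_apply]
  simp only [hd, one_zpow, mul_one, zv, UpperHalfPlane.modular_T_smul, UpperHalfPlane.coe_vadd,
    Matrix.cons_val_zero, Matrix.cons_val_one]
  congr 1
  rw [Complex.ofReal_one, add_comm (1 : ℂ), zetaT_t_add_one,
    show (frc (v 0) : ℂ) * ((t : ℂ) + 1) + frc (v 1) =
      (frc (v 0) : ℂ) * t + ((frc (v 0) + frc (v 1) : ℝ) : ℂ) by push_cast; ring, hn]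
  push_cast
  rw [← add_assoc, zetaT_add_nat]

theorem zv_slash_S (v : Fin 2 → ZMod l) :
    zv v ∣[(1 : ℤ)] ModularGroup.S = zv ![v 1, -v 0] := by
  funext t
  rcases eq_or_ne v 0 with rfl | hv
  · rw [zv_zero, SlashAction.zero_slash]
    rw [show (![(0 : Fin 2 → ZMod l) 1, -(0 : Fin 2 → ZMod l) 0]) = 0 by ext i; fin_cases i <;> simp,
      zv_zero]
  set x := frc (v 0) with hx
  set y := frc (v 1) with hy
  have hne : y ≠ 0 ∨ -x ≠ 0 := by
    by_contra h
    push Not at h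
    refine hv (funext fun i => ?_)
    fin_cases i
    · exact frc_eq_zero_iff.1 (neg_eq_zero.1 h.2)
    · exact frc_eq_zero_iff.1 h.1
  have hy1 : |y| < 1 := by rw [hy, abs_of_nonneg (frc_nonneg _)]; exact frc_lt_one _
  have hx1 : |-x| < 1 := by rw [abs_neg, hx, abs_of_nonneg (frc_nonneg _)]; exact frc_lt_one _
  have key := zetaT_S_smul t hy1 hx1 hne
  have ht : (t : ℂ) ≠ 0 := t.ne_zero
  have hS : ((ModularGroup.S • t : ℍ) : ℂ) = -1 / (t : ℂ) := by
    rw [UpperHalfPlane.modular_S_smul]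
    show (-(t : ℂ))⁻¹ = _
    rw [inv_neg, neg_div, one_div]
  obtain ⟨n, hn⟩ := frc_neg (v 0)
  have hn' : zetaT t ((y : ℂ) * t + ((-x : ℝ) : ℂ)) = zetaT t ((y : ℂ) * t + (frc (-v 0) : ℂ)) := by
    rw [show ((y : ℂ) * t + (frc (-v 0) : ℂ)) = (y : ℂ) * t + ((-x : ℝ) : ℂ) + (n : ℂ) by
      rw [add_assoc]; congr 1; rw [← Complex.ofReal_natCast, ← hn]; push_cast; ring, zetaT_add_nat]
  rw [ModularForm.SL_slash_apply, ModularGroup.denom_S, zv, zpow_neg_one,
    show (frc (v 0) : ℂ) * ((ModularGroup.S • t : ℍ) : ℂ) + frc (v 1) =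
      ((y : ℂ) * t + ((-x : ℝ) : ℂ)) / t by rw [hS]; push_cast; field_simp; ring,
    key, hn', zv]
  simp only [Matrix.cons_val_zero, Matrix.cons_val_one]
  push_cast
  field_simp
  ring

/-- `SL₂(ℤ)` permutes the functions `zv v`. -/
theorem zv_slash (g : SL(2, ℤ)) (v : Fin 2 → ZMod l) :
    zv v ∣[(1 : ℤ)] g =
      zv (Matrix.vecMul v ((g : Matrix (Fin 2) (Fin 2) ℤ).map (Int.cast : ℤ → ZMod l))) := by
  have hg : g ∈ Subgroup.closure {ModularGroup.S, ModularGroup.T} := by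
    simp [SpecialLinearGroup.SL2Z_generators]
  let φ : SL(2, ℤ) →* SL(2, ZMod l) :=
    Matrix.SpecialLinearGroup.map (Int.castRingHom (ZMod l))
  suffices ∀ v, zv v ∣[(1 : ℤ)] g = zv (Matrix.vecMul v (φ g : Matrix (Fin 2) (Fin 2) (ZMod l))) from
    this v
  induction hg using Subgroup.closure_induction with
  | mem x hx =>
    intro v
    rcases hx with rfl | rfl
    · rw [zv_slash_S]
      congr 1
      ext i
      fin_cases i <;> simp [φ, Matrix.vecMul, dotProduct, ModularGroup.S, Fin.sum_univ_two]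
    · rw [zv_slash_T]
      congr 1
      ext i
      fin_cases i <;> simp [φ, Matrix.vecMul, dotProduct, ModularGroup.T, Fin.sum_univ_two]
  | one => intro v; simp
  | mul x y _ _ hx hy =>
    intro v
    rw [SlashAction.slash_mul, hx, hy, map_mul, Matrix.SpecialLinearGroup.coe_mul,
      Matrix.vecMul_vecMul]
  | inv x _ hx =>
    intro v
    have h := hx (Matrix.vecMul v (φ x⁻¹ : Matrix (Fin 2) (Fin 2) (ZMod l)))
    rw [Matrix.vecMul_vecMul, ← Matrix.SpecialLinearGroup.coe_mul, ← map_mul, inv_mul_cancel,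
      map_one, Matrix.SpecialLinearGroup.coe_one, Matrix.vecMul_one] at h
    rw [← h, ← SlashAction.slash_mul, mul_inv_cancel, SlashAction.slash_one]

/-! ### Holomorphy and growth -/

theorem im_arg (v : Fin 2 → ZMod l) (w : ℂ) :
    ((frc (v 0) : ℂ) * w + (frc (v 1) : ℂ)).im = frc (v 0) * w.im := by simp

theorem abs_im_arg_le (v : Fin 2 → ZMod l) {w : ℂ} {δ : ℝ} (hδ0 : 0 ≤ δ) (hδ : δ ≤ w.im) :
    |((frc (v 0) : ℂ) * w + (frc (v 1) : ℂ)).im| ≤ w.im - (1 - frc (v 0)) * δ := by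
  rw [im_arg, abs_of_nonneg (mul_nonneg (frc_nonneg _) (hδ0.trans hδ))]
  nlinarith [frc_lt_one (v 0)]

theorem mdifferentiable_zv (v : Fin 2 → ZMod l) : MDiff (zv v) := by
  rcases eq_or_ne v 0 with rfl | hv
  · rw [zv_zero]; exact mdifferentiable_const
  rw [UpperHalfPlane.mdifferentiable_iff]
  intro w0 (hw0 : 0 < w0.im)
  refine DifferentiableAt.differentiableWithinAt ?_
  set x : ℂ := (frc (v 0) : ℂ) with hx
  set y : ℂ := (frc (v 1) : ℂ) with hy
  set δ := w0.im / 2 with hδd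
  have hδ : 0 < δ := by positivity
  have hη : 0 < (1 - frc (v 0)) * δ := mul_pos (by linarith [frc_lt_one (v 0)]) hδ
  set U : Set ℂ := {w | δ < w.im} with hU
  have hUo : IsOpen U := isOpen_lt continuous_const Complex.continuous_im
  have hw : w0 ∈ U := by show δ < w0.im; rw [hδd]; linarith
  have hbd : ∀ (m : ℕ) (w : ℂ), w ∈ U →
      ‖zetaTerm w (x * w + y) m‖ ≤ zetaBound δ ((1 - frc (v 0)) * δ) m := fun m w (hw : δ < w.im) =>
    norm_zetaTerm_le hδ hη hw.le (abs_im_arg_le v hδ.le hw.le) m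
  have hd : ∀ m : ℕ, DifferentiableOn ℂ (fun w => zetaTerm w (x * w + y) m) U := by
    intro m w (hw : δ < w.im)
    obtain ⟨h1, h2⟩ := zetaTerm_arg_ne_zero (t := w) (z := x * w + y)
      (lt_of_le_of_lt (abs_im_arg_le v hδ.le hw.le) (by linarith)) m
    have he : ∀ g : ℂ → ℂ, DifferentiableAt ℂ g w →
        DifferentiableAt ℂ (fun u => expTwoPiI (g u)) w := fun g hg =>
      ((hasDerivAt_expTwoPiI (g w)).differentiableAt).comp w hg
    refine DifferentiableAt.differentiableWithinAt ?_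
    unfold zetaTerm lamF
    exact ((he _ (by fun_prop)).div ((he _ (by fun_prop)).const_sub 1) h1).sub
      ((he _ (by fun_prop)).div ((he _ (by fun_prop)).const_sub 1) h2)
  have hsum : DifferentiableAt ℂ (fun w => ∑' m, zetaTerm w (x * w + y) m) w0 :=
    (differentiableOn_tsum_of_summable_norm (summable_zetaBound hδ) hd hUo hbd).differentiableAt
      (hUo.mem_nhds hw)
  have hz : x * w0 + y ∈ nonInteger := by
    refine mem_nonInteger.2 fun n hn => hv ?_
    have him := congrArg Complex.im hn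
    rw [im_arg] at him
    simp only [Complex.intCast_im, mul_eq_zero, hw0.ne', or_false] at him
    have hre := congrArg Complex.re hn
    simp [hx, hy, him] at hre
    have h0 : n = 0 := by
      have h1 := frc_nonneg (v 1)
      have h2 := frc_lt_one (v 1)
      rw [hre] at h1 h2
      have h3 : n < 1 := by exact_mod_cast h2
      have h4 : 0 ≤ n := by exact_mod_cast h1
      omega
    rw [h0, Int.cast_zero] at hre
    funext i
    fin_cases i
    · exact frc_eq_zero_iff.1 him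
    · exact frc_eq_zero_iff.1 hre
  have hH : DifferentiableAt ℂ (fun w => lamH (expTwoPiI (x * w + y))) w0 := by
    have he : DifferentiableAt ℂ (fun u => expTwoPiI (x * u + y)) w0 :=
      ((hasDerivAt_expTwoPiI (x * w0 + y)).differentiableAt).comp w0
        (f := fun u => x * u + y) (by fun_prop)
    unfold lamH
    exact (he.const_add 1).div ((he.const_sub 1).const_mul 2)
      (mul_ne_zero two_ne_zero (one_sub_expTwoPiI_ne_zero hz))
  refine (((hH.add hsum).sub_const x).congr_of_eventuallyEq ?_)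
  filter_upwards [(isOpen_lt continuous_const Complex.continuous_im).mem_nhds hw0] with w hw
  simp [zv, zetaT, UpperHalfPlane.ofComplex_apply_of_im_pos hw, hx, hy]

theorem isBoundedAtImInfty_zv (v : Fin 2 → ZMod l) : IsBoundedAtImInfty (zv v) := by
  rw [UpperHalfPlane.isBoundedAtImInfty_iff]
  set x := frc (v 0) with hx
  set y := frc (v 1) with hy
  have hx1 : x < 1 := frc_lt_one _
  set ρ := Real.exp (-(2 * π * x)) with hρd
  refine ⟨max ((1 + 1) / (2 * (1 - ρ))) ‖lamH (expTwoPiI (y : ℂ))‖ +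
    (∑' m, zetaBound 1 (1 - x) m) + x, 1, fun t ht => ?_⟩
  have hb := fun m => norm_zetaTerm_le (t := (t : ℂ)) (z := (x : ℂ) * t + y) one_pos
    (by linarith : 0 < 1 - x) ht (by simpa using abs_im_arg_le v zero_le_one ht) m
  have h2 : ‖∑' m, zetaTerm t ((x : ℂ) * t + y) m‖ ≤ ∑' m, zetaBound 1 (1 - x) m :=
    tsum_of_norm_bounded (summable_zetaBound one_pos).hasSum hb
  have h1 : ‖lamH (expTwoPiI ((x : ℂ) * t + y))‖ ≤
      max ((1 + 1) / (2 * (1 - ρ))) ‖lamH (expTwoPiI (y : ℂ))‖ := by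
    rcases eq_or_ne x 0 with h0 | h0
    · refine le_max_of_le_right (le_of_eq ?_)
      simp [h0]
    refine le_max_of_le_left ?_
    have hx0 : 0 < x := lt_of_le_of_ne (frc_nonneg _) (Ne.symm h0)
    have hρ : ρ < 1 := by
      rw [hρd, Real.exp_lt_one_iff]
      have : 0 < 2 * π * x := by positivity
      linarith
    have hn : ‖expTwoPiI ((x : ℂ) * t + y)‖ ≤ ρ := by
      rw [norm_expTwoPiI, hρd, Real.exp_le_exp]
      have h3 : x * 1 ≤ x * (t : ℂ).im := mul_le_mul_of_nonneg_left ht hx0.le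
      simp at h3 ⊢
      nlinarith [Real.pi_pos]
    rw [lamH, norm_div, norm_mul, Complex.norm_two]
    refine div_le_div₀ (by norm_num) ((norm_add_le _ _).trans ?_) (by linarith) ?_
    · rw [norm_one]; linarith
    · have := norm_sub_norm_le (1 : ℂ) (expTwoPiI ((x : ℂ) * t + y))
      rw [norm_one] at this
      linarith
  refine (norm_sub_le _ _).trans (add_le_add ((norm_add_le _ _).trans (add_le_add h1 h2)) ?_)
  rw [Complex.norm_real, Real.norm_eq_abs, abs_of_nonneg (frc_nonneg _)]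

/-! ### The series of a character -/

variable (χ : DirichletCharacter ℂ l)

/-- `∑ χ(a) zv (a, 0) ∣ (l 0; 0 1)`. -/
def eisRaw : ℍ → ℂ :=
  ∑ a : ZMod l, χ a • (zv ![a, 0] ∣[(1 : ℤ)] ModularForm.heckeDiagMatrix l)

theorem eisRaw_apply (t : ℍ) :
    eisRaw χ t = ∑ a : ZMod l,
      χ a * (zetaT ((l : ℂ) * t) ((a.val : ℂ) * t) - (frc a : ℂ)) := by
  have hl : (l : ℂ) ≠ 0 := by exact_mod_cast NeZero.ne l
  simp only [eisRaw, Finset.sum_apply, Pi.smul_apply, smul_eq_mul]
  refine Finset.sum_congr rfl fun a _ => ?_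
  rw [ModularForm.slash_heckeDiagMatrix_apply 1 (NeZero.ne l), sub_self, zpow_zero, one_mul, zv,
    ModularForm.coe_heckeDiagMatrix_smul (NeZero.ne l)]
  simp only [Matrix.cons_val_zero, Matrix.cons_val_one, frc, ZMod.val_zero, Nat.cast_zero,
    zero_div, Complex.ofReal_zero, add_zero]
  push_cast
  congr 3
  field_simp

theorem zvDiag_slash {γ : SL(2, ℤ)} (hγ : γ ∈ CongruenceSubgroup.Gamma0 l) (a : ZMod l) :
    (zv ![a, 0] ∣[(1 : ℤ)] ModularForm.heckeDiagMatrix l) ∣[(1 : ℤ)] (γ : GL (Fin 2) ℝ) =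
      zv ![a * ((γ 0 0 : ℤ) : ZMod l), 0] ∣[(1 : ℤ)] ModularForm.heckeDiagMatrix l := by
  have hc : ((γ 1 0 : ℤ) : ZMod l) = 0 := CongruenceSubgroup.Gamma0_mem.mp hγ
  obtain ⟨c', hc'⟩ := (ZMod.intCast_zmod_eq_zero_iff_dvd _ _).mp hc
  have hdet : γ 0 0 * γ 1 1 - γ 0 1 * γ 1 0 = 1 := by
    have := γ.det_coe
    rwa [Matrix.det_fin_two] at this
  let γ' : SL(2, ℤ) := ⟨!![γ 0 0, (l : ℤ) * γ 0 1; c', γ 1 1], by
    rw [Matrix.det_fin_two_of]; rw [hc'] at hdet; linear_combination hdet⟩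
  have hmat : ModularForm.heckeDiagMatrix l * (γ : GL (Fin 2) ℝ) =
      (γ' : GL (Fin 2) ℝ) * ModularForm.heckeDiagMatrix l := by
    apply Units.ext
    rw [Units.val_mul, Units.val_mul, ModularForm.val_heckeDiagMatrix (NeZero.ne l)]
    ext i j
    fin_cases i <;> fin_cases j <;>
      simp [γ', Matrix.mul_apply, Fin.sum_univ_two, hc', mul_comm]
  rw [← SlashAction.slash_mul, hmat, SlashAction.slash_mul, ← ModularForm.SL_slash, zv_slash]
  congr 2
  ext i
  fin_cases i <;> simp [γ', Matrix.vecMul, dotProduct, Fin.sum_univ_two]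

theorem isBoundedAtImInfty_zvDiag_slash (v : Fin 2 → ZMod l) (g : SL(2, ℤ)) :
    IsBoundedAtImInfty
      ((zv v ∣[(1 : ℤ)] ModularForm.heckeDiagMatrix l) ∣[(1 : ℤ)] (g : GL (Fin 2) ℝ)) := by
  have hM : HeckeFinite.IsIntGL (ModularForm.heckeDiagMatrix l * (g : GL (Fin 2) ℝ)) := by
    refine HeckeFinite.IsIntGL.mul ⟨ModularForm.det_heckeDiagMatrix_pos l, fun i j => ?_⟩
      (HeckeFinite.isIntGL_specialLinearGroup g)
    rw [ModularForm.val_heckeDiagMatrix (NeZero.ne l)]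
    exact ⟨!![(l : ℤ), 0; 0, 1] i j, by fin_cases i <;> fin_cases j <;> simp⟩
  obtain ⟨h, u, hu, hM⟩ := hM.exists_eq_mul
  rw [← SlashAction.slash_mul, hM, SlashAction.slash_mul, ← ModularForm.SL_slash, zv_slash]
  exact (isBoundedAtImInfty_zv _).slash _ hu

theorem hasNeb_eisRaw : HasNeb 1 χ (eisRaw χ) := by
  intro γ hγ
  have hc : ((γ 1 0 : ℤ) : ZMod l) = 0 := CongruenceSubgroup.Gamma0_mem.mp hγ
  have hdet : γ 0 0 * γ 1 1 - γ 0 1 * γ 1 0 = 1 := by
    have := γ.det_coe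
    rwa [Matrix.det_fin_two] at this
  have hu : ((γ 0 0 : ℤ) : ZMod l) * ((γ 1 1 : ℤ) : ZMod l) = 1 := by
    have := congrArg (Int.cast : ℤ → ZMod l) hdet
    push_cast at this
    rw [hc] at this
    linear_combination this
  have hterm := zvDiag_slash hγ
  rw [eisRaw, SlashAction.sum_slash, Finset.smul_sum]
  simp only [ModularForm.smul_slash, UpperHalfPlane.σ, if_pos (show (0 : ℝ) <
    Matrix.GeneralLinearGroup.det ((γ : GL (Fin 2) ℝ)) by simp), ContinuousAlgEquiv.refl_apply,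
    hterm]
  refine Fintype.sum_equiv
    ⟨fun a => a * ((γ 0 0 : ℤ) : ZMod l), fun a => a * ((γ 1 1 : ℤ) : ZMod l),
      fun a => by show _ * _ * _ = _; rw [mul_assoc, hu, mul_one],
      fun a => by show _ * _ * _ = _; rw [mul_assoc, mul_comm ((γ 1 1 : ℤ) : ZMod l), hu, mul_one]⟩
    _ _ fun a => ?_
  simp only [Equiv.coe_fn_mk, smul_smul]
  rw [← map_mul, mul_comm ((γ 1 1 : ℤ) : ZMod l), mul_assoc, hu, mul_one]

theorem mdifferentiable_eisRaw : MDiff (eisRaw χ) := by
  rw [eisRaw]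
  exact MDifferentiable.sum fun a _ => ((mdifferentiable_zv _).slash 1 _).const_smul _

theorem isBoundedAtImInfty_eisRaw_slash (g : SL(2, ℤ)) :
    IsBoundedAtImInfty (eisRaw χ ∣[(1 : ℤ)] g) := by
  rw [ModularForm.SL_slash, eisRaw, SlashAction.sum_slash]
  refine Finset.sum_induction _ (fun F => IsBoundedAtImInfty F) (fun F G => BoundedAtFilter.add)
    (by exact const_boundedAtFilter _ (0 : ℂ)) fun a _ => ?_
  rw [ModularForm.smul_slash]
  exact BoundedAtFilter.smul _ (isBoundedAtImInfty_zvDiag_slash _ g)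

/-! ### The expansion at infinity -/

theorem summable_mul_lamF {q : ℂ} (hq : ‖q‖ < 1) :
    Summable fun n : ℕ => χ (n : ZMod l) * lamF (q ^ n) := by
  refine Summable.of_norm_bounded_eventually_nat
    ((summable_geometric_of_lt_one (norm_nonneg q) hq).mul_left (1 / (1 - ‖q‖))) ?_
  filter_upwards [eventually_ge_atTop 1] with n hn
  have h1 : ‖q ^ n‖ ≤ ‖q‖ := by
    rw [norm_pow]; exact pow_le_of_le_one (norm_nonneg _) hq.le (by omega)
  rw [norm_mul]
  calc ‖χ (n : ZMod l)‖ * ‖lamF (q ^ n)‖ ≤ 1 * (‖q ^ n‖ / (1 - ‖q‖)) := by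
        exact mul_le_mul (DirichletCharacter.norm_le_one χ _) (norm_lamF_le h1 hq) (norm_nonneg _)
          zero_le_one
    _ = _ := by rw [norm_pow]; ring

variable {χ}

theorem map_zero_of_one_lt (hl : 1 < l) : χ 0 = 0 :=
  haveI : Fact (1 < l) := ⟨hl⟩
  χ.map_nonunit not_isUnit_zero

theorem sum_eq_zero_of_odd (hχ : χ.Odd) : ∑ a : ZMod l, χ a = 0 := by
  refine MulChar.sum_eq_zero_of_ne_one fun h => ?_
  have h1 : χ (-1) = -1 := hχ
  rw [h, MulChar.one_apply isUnit_one.neg] at h1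
  norm_num at h1

variable (χ) in
/-- `∑ χ(a) a / l`. -/
def bernoulliOne : ℂ := ∑ a : ZMod l, χ a * (frc a : ℂ)

theorem eisRaw_eq_tsum_lamF (hl : 1 < l) (hχ : χ.Odd) (t : ℍ) :
    eisRaw χ t =
      -bernoulliOne χ + 2 * ∑' n : ℕ, χ (n : ZMod l) * lamF (expTwoPiI t ^ n) := by
  set q := expTwoPiI (t : ℂ) with hqd
  have hq : ‖q‖ < 1 := norm_expTwoPiI_lt_one t.im_pos
  have hs := summable_mul_lamF χ hq
  have hcl := Nat.sumByResidueClasses hs l
  simp only [Nat.cast_add, ZMod.natCast_zmod_val, Nat.cast_mul, ZMod.natCast_self, zero_mul,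
    add_zero] at hcl
  -- the terms of one residue class
  set F : ZMod l → ℂ := fun a => ∑' m : ℕ, χ a * lamF (q ^ (a.val + l * m)) with hF
  have hzero : χ (0 : ZMod l) = 0 := map_zero_of_one_lt hl
  have hterm : ∀ a : ZMod l, χ a * (zetaT ((l : ℂ) * t) ((a.val : ℂ) * t) - (frc a : ℂ)) =
      (χ a / 2 - χ a * (frc a : ℂ)) + F a + F (-a) := by
    intro a
    rcases eq_or_ne a 0 with rfl | ha
    · simp [hF, hzero]
    have hav : 0 < a.val := Nat.pos_of_ne_zero fun h => ha ((ZMod.val_eq_zero a).1 h)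
    have hne : q ^ a.val ≠ 1 := fun h => by
      have := congrArg norm h
      rw [norm_pow, norm_one] at this
      exact (pow_lt_one₀ (norm_nonneg _) hq hav.ne').ne this
    have hL : lamH (q ^ a.val) = 1 / 2 + lamF (q ^ a.val) := by
      have : 1 - q ^ a.val ≠ 0 := sub_ne_zero.2 (Ne.symm hne)
      rw [lamH, lamF]
      field_simp
      ring
    have hneg : (-a).val = l - a.val := by rw [ZMod.neg_val, if_neg ha]
    have hval : a.val < l := ZMod.val_lt a
    have e : ∀ m : ℕ, zetaTerm ((l : ℂ) * t) ((a.val : ℂ) * t) m =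
        lamF (q ^ (a.val + l * (m + 1))) - lamF (q ^ ((-a).val + l * m)) := by
      intro m
      rw [zetaTerm, hqd, ← expTwoPiI_nat_mul, ← expTwoPiI_nat_mul, hneg]
      congr 3
      · push_cast; ring
      · push_cast [hval.le]; ring
    have hsa : ∀ b : ZMod l, Summable fun m : ℕ => lamF (q ^ (b.val + l * (m + 1))) := fun b => by
      refine Summable.of_norm_bounded
        ((summable_geometric_of_lt_one (norm_nonneg q) hq).mul_left (1 / (1 - ‖q‖))) fun m => ?_
      have h1 : m ≤ b.val + l * (m + 1) := by nlinarith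
      refine (norm_lamF_le (ρ := ‖q‖) ?_ hq).trans ?_
      · rw [norm_pow]; exact pow_le_of_le_one (norm_nonneg _) hq.le (by positivity)
      · rw [norm_pow, div_eq_inv_mul, one_div]
        exact mul_le_mul_of_nonneg_left (pow_le_pow_of_le_one (norm_nonneg _) hq.le h1)
          (inv_nonneg.2 (by linarith))
    have hsb : ∀ b : ZMod l, Summable fun m : ℕ => lamF (q ^ (b.val + l * m)) := fun b =>
      (summable_nat_add_iff 1).1 (hsa b)
    have hodd : χ (-a) = -χ a := DirichletCharacter.Odd.eval_neg χ a hχ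
    rw [zetaT, show expTwoPiI ((a.val : ℂ) * t) = q ^ a.val by rw [hqd, expTwoPiI_nat_mul], hL,
      tsum_congr e, (hsa a).tsum_sub (hsb (-a))]
    simp only [hF, tsum_mul_left, hodd]
    rw [(hsb a).tsum_eq_zero_add, mul_zero, add_zero]
    ring
  rw [eisRaw_apply, Finset.sum_congr rfl fun a _ => hterm a, hcl, Finset.sum_add_distrib,
    Finset.sum_add_distrib, Finset.sum_sub_distrib, ← Finset.sum_div, sum_eq_zero_of_odd hχ,
    zero_div, zero_sub]
  rw [show ∑ a : ZMod l, F (-a) = ∑ a : ZMod l, F a from Equiv.sum_comp (Equiv.neg (ZMod l)) F]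
  simp only [bernoulliOne, hF]
  ring

/-- The `q`-coefficients of `eisRaw`. -/
def eisRawCoeff (χ : DirichletCharacter ℂ l) (n : ℕ) : ℂ :=
  if n = 0 then -bernoulliOne χ else 2 * ∑ d ∈ n.divisors, χ (d : ZMod l)

theorem hasSum_lambert {q : ℂ} (hq : ‖q‖ < 1) (w : ℕ → ℂ) (hw : ∀ n, ‖w n‖ ≤ 1) :
    HasSum (fun n : ℕ+ => (∑ d ∈ (n : ℕ).divisors, w d) * q ^ (n : ℕ))
      (∑' n : ℕ+, w (n : ℕ) * lamF (q ^ (n : ℕ))) := by
  set G : ℕ+ × ℕ+ → ℂ := fun c => w (c.1 : ℕ) * q ^ (c.1 * c.2 : ℕ) with hG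
  have hGs : Summable G := by
    refine Summable.of_norm_bounded (summable_prod_mul_pow 0 hq).norm fun c => ?_
    simp only [hG, pow_zero, one_mul, norm_mul]
    exact mul_le_of_le_one_left (norm_nonneg _) (hw _)
  have h1 : ∀ b : ℕ+, HasSum (fun c : ℕ+ => G (b, c))
      (w (b : ℕ) * lamF (q ^ (b : ℕ))) := by
    intro b
    have hb : ‖q ^ (b : ℕ)‖ < 1 := by
      rw [norm_pow]; exact pow_lt_one₀ (norm_nonneg _) hq b.ne_zero
    have := (hasSum_geometric_of_norm_lt_one hb).mul_left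
      (w (b : ℕ) * q ^ (b : ℕ))
    rw [mul_assoc] at this
    refine (Equiv.pnatEquivNat.symm.hasSum_iff (f := fun c : ℕ+ => G (b, c))).1 ?_
    simpa [lamF, div_eq_mul_inv, hG, Function.comp_def, mul_add, pow_add, pow_mul, mul_assoc,
      mul_comm (q ^ (b : ℕ))] using this
  have h2 : ∑' n : ℕ+, w (n : ℕ) * lamF (q ^ (n : ℕ)) = ∑' c, G c :=
    (hGs.hasSum.prod_fiberwise h1).tsum_eq
  rw [h2]
  refine HasSum.sigma (f := G ∘ sigmaAntidiagonalEquivProd)
    (sigmaAntidiagonalEquivProd.hasSum_iff.2 hGs.hasSum) fun n => ?_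
  have h3 : (∑ d ∈ (n : ℕ).divisors, w d) * q ^ (n : ℕ) =
      ∑ x : {x // x ∈ (n : ℕ).divisorsAntidiagonal}, G (sigmaAntidiagonalEquivProd ⟨n, x⟩) := by
    rw [Finset.sum_mul, ← Nat.sum_divisorsAntidiagonal (fun a _ => w a * q ^ (n : ℕ)),
      ← Finset.sum_attach, Finset.univ_eq_attach]
    refine Finset.sum_congr rfl fun x _ => ?_
    simp only [hG, sigmaAntidiagonalEquivProd, Equiv.coe_fn_mk, divisorsAntidiagonalFactors,
      PNat.mk_coe, (Nat.mem_divisorsAntidiagonal.mp x.2).1]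
  rw [h3]
  exact hasSum_fintype _

theorem hasSum_eisRaw (hl : 1 < l) (hχ : χ.Odd) (t : ℍ) :
    HasSum (fun n : ℕ => eisRawCoeff χ n • Function.Periodic.qParam 1 (t : ℂ) ^ n)
      (eisRaw χ t) := by
  have hqq : Function.Periodic.qParam 1 (t : ℂ) = expTwoPiI (t : ℂ) := by
    simp [Function.Periodic.qParam, expTwoPiI]
  rw [hqq]
  set q := expTwoPiI (t : ℂ) with hqd
  have hq : ‖q‖ < 1 := norm_expTwoPiI_lt_one t.im_pos
  have h0 : lamF (q ^ 0) = 0 := by simp [lamF]
  have e : ∑' n : ℕ+, χ ((n : ℕ) : ZMod l) * lamF (q ^ (n : ℕ)) =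
      ∑' n : ℕ, χ (n : ZMod l) * lamF (q ^ n) := by
    rw [← tsum_zero_pnat_eq_tsum_nat (summable_mul_lamF χ hq), h0, mul_zero, zero_add]
  have hpos := (hasSum_lambert hq (fun n => χ (n : ZMod l)) fun n => DirichletCharacter.norm_le_one χ _).mul_left 2
  rw [e] at hpos
  have hsucc : HasSum (fun n : ℕ => eisRawCoeff χ (n + 1) • q ^ (n + 1))
      (2 * ∑' n : ℕ, χ (n : ZMod l) * lamF (q ^ n)) := by
    have := (Equiv.pnatEquivNat.symm.hasSum_iff).2 hpos
    simpa [eisRawCoeff, Function.comp_def, mul_assoc] using this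
  have := (hasSum_nat_add_iff (f := fun n : ℕ => eisRawCoeff χ n • q ^ n) 1).1 hsucc
  simpa [eisRawCoeff, eisRaw_eq_tsum_lamF hl hχ t, ← hqd, add_comm] using this

theorem periodic_eisRaw (χ : DirichletCharacter ℂ l) :
    Function.Periodic (eisRaw χ ∘ UpperHalfPlane.ofComplex) 1 := by
  have hT : ModularGroup.T ∈ CongruenceSubgroup.Gamma0 l := by
    simp [CongruenceSubgroup.Gamma0_mem, ModularGroup.T]
  have h := hasNeb_eisRaw χ ModularGroup.T hT
  rw [show ((ModularGroup.T 1 1 : ℤ) : ZMod l) = 1 by simp [ModularGroup.T], map_one, one_smul,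
    ← ModularForm.SL_slash] at h
  intro w
  by_cases hw : 0 < w.im
  · have := congrFun h (UpperHalfPlane.ofComplex w)
    rw [ModularForm.SL_slash_apply, UpperHalfPlane.modular_T_smul] at this
    simp only [denom, ModularGroup.T] at this
    simp only [Function.comp_apply]
    rw [UpperHalfPlane.ofComplex_apply_of_im_pos (show 0 < (w + 1).im by simpa using hw),
      UpperHalfPlane.ofComplex_apply_of_im_pos hw] at *
    have e : (1 : ℝ) +ᵥ (⟨w, hw⟩ : ℍ) = ⟨w + 1, by simpa using hw⟩ :=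
      UpperHalfPlane.ext (by simp [add_comm])
    simpa [e] using this
  · simp only [Function.comp_apply]
    rw [UpperHalfPlane.ofComplex_apply_of_im_nonpos (not_lt.1 hw),
      UpperHalfPlane.ofComplex_apply_of_im_nonpos (by simpa using not_lt.1 hw)]

theorem analyticAt_cuspFunction_eisRaw (χ : DirichletCharacter ℂ l) :
    AnalyticAt ℂ (cuspFunction 1 (eisRaw χ)) 0 := by
  refine analyticAt_cuspFunction_zero one_pos ?_ (mdifferentiable_eisRaw χ) ?_
  · simpa using periodic_eisRaw χ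
  · simpa using isBoundedAtImInfty_eisRaw_slash χ 1

theorem qExpansion_eisRaw (hl : 1 < l) (hχ : χ.Odd) (n : ℕ) :
    (qExpansion 1 (eisRaw χ)).coeff n = eisRawCoeff χ n :=
  letI : FunLike (ℍ → ℂ) ℍ ℂ := ⟨fun f => f, fun _ _ h => h⟩
  (UpperHalfPlane.qExpansion_coeff_unique (eisRaw χ) one_pos (analyticAt_cuspFunction_eisRaw χ)
    (hasSum_eisRaw hl hχ) n).symm

end Fermat.Agent.DeligneSerre
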