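import Mathlib

/-!
# The inverse Teichmüller character attached to a valuation subring of `ℂ`
-/

set_option autoImplicit false

noncomputable section

namespace Fermat.Agent.DeligneSerre

variable (A : ValuationSubring ℂ)

theorem mem_and_notMem_nonunits_of_pow_eq_one {x : ℂ} {n : ℕ} (hn : n ≠ 0) (h : x ^ n = 1) :
    x ∈ A ∧ x ∉ A.nonunits := by
  have h1 : A.valuation x = 1 := by
    have h2 : A.valuation x ^ n = 1 := by rw [← map_pow, h, map_one]
    exact (pow_eq_one_iff_of_nonneg zero_le hn).mp h2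
  exact ⟨(A.valuation_le_one_iff x).mp h1.le, fun hx => (A.mem_nonunits_iff.mp hx).ne h1⟩

theorem char_mem {N : ℕ} [NeZero N] (ε : DirichletCharacter ℂ N) (a : ZMod N) : ε a ∈ A := by
  by_cases ha : IsUnit a
  · obtain ⟨u, rfl⟩ := ha
    refine (mem_and_notMem_nonunits_of_pow_eq_one A (n := Fintype.card (ZMod N)ˣ)
      Fintype.card_ne_zero ?_).1
    rw [← map_pow, ← Units.val_pow_eq_pow_val, pow_card_eq_one, Units.val_one, map_one]
  · rw [ε.map_nonunit ha]; exact A.zero_mem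

theorem mul_mem_nonunits {x y : ℂ} (hx : x ∈ A.nonunits) (hy : y ∈ A) :
    x * y ∈ A.nonunits := by
  rw [A.mem_nonunits_iff] at hx ⊢
  rw [map_mul]
  exact mul_lt_one_of_nonneg_of_lt_one_left zero_le hx ((A.valuation_le_one_iff y).mpr hy)

theorem div_mem_nonunits {x y : ℂ} (hx : x ∈ A.nonunits) (hy : y ∈ A) (hy' : y ∉ A.nonunits) :
    x / y ∈ A.nonunits := by
  rw [A.mem_nonunits_iff] at hx hy' ⊢
  rw [map_div₀, le_antisymm ((A.valuation_le_one_iff y).mpr hy) (not_lt.mp hy'), div_one]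
  exact hx

variable {ℓ : ℕ}

theorem natCast_mem_nonunits_iff (hℓ : ℓ.Prime) (hA : (ℓ : ℂ) ∈ A.nonunits) (n : ℕ) :
    (n : ℂ) ∈ A.nonunits ↔ ℓ ∣ n := by
  have hn : ∀ n : ℕ, (n : ℂ) ∈ A := fun n => natCast_mem A n
  constructor
  · intro h
    by_contra hd
    obtain ⟨u, v, huv⟩ := Nat.isCoprime_iff_coprime.mpr (hℓ.coprime_iff_not_dvd.mpr hd)
    have h1 : (1 : ℂ) ∈ A.nonunits := by
      have hz : ∀ z : ℤ, (z : ℂ) ∈ A := fun z => intCast_mem A z
      have hc : ((u * ℓ + v * n : ℤ) : ℂ) = 1 := by rw [huv]; norm_num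
      push_cast at hc
      rw [← hc]
      exact add_mem (mul_comm (ℓ : ℂ) (u : ℂ) ▸ mul_mem_nonunits A hA (hz u))
        (mul_comm (n : ℂ) (v : ℂ) ▸ mul_mem_nonunits A h (hz v))
    rw [A.mem_nonunits_iff, map_one] at h1
    exact h1.false
  · rintro ⟨m, rfl⟩
    push_cast
    exact mul_mem_nonunits A hA (hn m)

/-- There is an odd character `χ` mod `ℓ` with `χ(d) d ≡ 1` modulo the maximal ideal. -/
theorem exists_inverse_teichmuller (hℓ : ℓ.Prime) (h2 : ℓ ≠ 2) (hA : (ℓ : ℂ) ∈ A.nonunits) :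
    ∃ χ : DirichletCharacter ℂ ℓ, χ.Odd ∧
      ∀ d : ℕ, ¬ ℓ ∣ d → χ (d : ZMod ℓ) * (d : ℂ) - 1 ∈ A.nonunits := by
  have : Fact ℓ.Prime := ⟨hℓ⟩
  let k := IsLocalRing.ResidueField A
  let res : A →+* k := IsLocalRing.residue A
  have hres : ∀ x : A, res x = 0 ↔ (x : ℂ) ∈ A.nonunits := fun x => by
    rw [IsLocalRing.residue_eq_zero_iff, ValuationSubring.coe_mem_nonunits_iff]
  have hk : CharP k ℓ := by
    refine (CharP.charP_iff_prime_eq_zero hℓ).mpr ?_
    rw [← map_natCast res, hres]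
    simpa using hA
  have hn0 : ℓ - 1 ≠ 0 := by have := hℓ.two_le; omega
  have : NeZero (ℓ - 1) := ⟨hn0⟩
  -- reduction on the roots of unity of order dividing `ℓ - 1`
  have hA' : ∀ ζ : rootsOfUnity (ℓ - 1) ℂ, ((ζ : ℂˣ) : ℂ) ∈ A := fun ζ =>
    (mem_and_notMem_nonunits_of_pow_eq_one A hn0 ((mem_rootsOfUnity' _ _).mp ζ.2)).1
  let f0 : rootsOfUnity (ℓ - 1) ℂ →* k :=
    { toFun := fun ζ => res ⟨_, hA' ζ⟩
      map_one' := by rw [← map_one res]; rfl
      map_mul' := fun ζ ζ' => by rw [← map_mul res]; rfl }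
  let f : rootsOfUnity (ℓ - 1) ℂ →* rootsOfUnity (ℓ - 1) k :=
    f0.toHomUnits.codRestrict _ fun ζ => by
      rw [mem_rootsOfUnity', MonoidHom.coe_toHomUnits, ← map_pow]
      have : ζ ^ (ℓ - 1) = 1 := Subtype.ext (by
        rw [SubmonoidClass.coe_pow, OneMemClass.coe_one]; exact (mem_rootsOfUnity _ _).mp ζ.2)
      rw [this, map_one]
  have hfval : ∀ ζ, (((f ζ : kˣ)) : k) = res ⟨_, hA' ζ⟩ := fun ζ => rfl
  have hfinj : Function.Injective f := by
    rw [injective_iff_map_eq_one]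
    intro ζ hζ
    have h1 : res ⟨_, hA' ζ⟩ = 1 := by rw [← hfval, hζ]; rfl
    by_contra hne
    set z : A := ⟨_, hA' ζ⟩ with hz
    have hz1 : z ≠ 1 := fun h => hne (Subtype.ext (Units.ext (congrArg Subtype.val h)))
    have hzp : z ^ (ℓ - 1) = 1 := Subtype.ext (by
      rw [SubmonoidClass.coe_pow]; exact (mem_rootsOfUnity' _ _).mp ζ.2)
    have hsum : (∑ i ∈ Finset.range (ℓ - 1), z ^ i) = 0 := by
      have := geom_sum_mul z (ℓ - 1)
      rw [hzp, sub_self, mul_eq_zero] at this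
      exact this.resolve_right (sub_ne_zero.mpr hz1)
    have := congrArg res hsum
    simp only [map_sum, map_pow, h1, one_pow, Finset.sum_const, Finset.card_range, nsmul_eq_mul,
      mul_one, map_zero] at this
    rw [CharP.cast_eq_zero_iff k ℓ] at this
    exact absurd (Nat.le_of_dvd (Nat.pos_of_ne_zero hn0) this) (by have := hℓ.two_le; omega)
  have hcardC : Nat.card (rootsOfUnity (ℓ - 1) ℂ) = ℓ - 1 := by
    exact Complex.card_rootsOfUnity _
  have hfbij : Function.Bijective f := hfinj.bijective_of_nat_card_le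
    ((card_rootsOfUnity (R := k) (ℓ - 1)).trans hcardC.ge)
  let e := MulEquiv.ofBijective f hfbij
  -- the units of `ℤ/ℓ` inside the roots of unity of `k`
  let g : (ZMod ℓ)ˣ →* rootsOfUnity (ℓ - 1) k :=
    (Units.map (ZMod.castHom dvd_rfl k : ZMod ℓ →+* k).toMonoidHom).codRestrict _ fun u => by
      rw [mem_rootsOfUnity, ← map_pow, ZMod.units_pow_card_sub_one_eq_one, map_one]
  let ω : (ZMod ℓ)ˣ →* ℂˣ := (rootsOfUnity (ℓ - 1) ℂ).subtype.comp (e.symm.toMonoidHom.comp g)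
  let χ : DirichletCharacter ℂ ℓ := MulChar.ofUnitHom ω⁻¹
  have hχ : ∀ d : ℕ, ¬ ℓ ∣ d → χ (d : ZMod ℓ) * (d : ℂ) - 1 ∈ A.nonunits := by
    intro d hd
    obtain ⟨u, hu⟩ : IsUnit (d : ZMod ℓ) :=
      (ZMod.isUnit_iff_coprime d ℓ).mpr (hℓ.coprime_iff_not_dvd.mpr hd).symm
    rw [← hu, MulChar.ofUnitHom_coe]
    set ζ := e.symm (g u)
    have hζ : res ⟨_, hA' ζ⟩ = (d : k) := by
      rw [← hfval, show f ζ = g u from e.apply_symm_apply (g u)]
      show ZMod.castHom dvd_rfl k (u : ZMod ℓ) = _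
      rw [hu, map_natCast]
    have hinv : res ⟨_, hA' ζ⁻¹⟩ * res ⟨_, hA' ζ⟩ = 1 := by
      rw [← map_mul, ← map_one res]
      exact congrArg res (Subtype.ext (by simp))
    have hmem : ((ω⁻¹ u : ℂˣ) : ℂ) * (d : ℂ) - 1 =
        ((⟨_, hA' ζ⁻¹⟩ * (d : A) - 1 : A) : ℂ) := by
      simp [ω, ζ]
    rw [hmem, ← hres, map_sub, map_mul, map_natCast, map_one, ← hζ, hinv, sub_self]
  refine ⟨χ, ?_, hχ⟩
  -- `χ` is odd
  have h1 : χ (-1) * χ (-1) = 1 := by rw [← map_mul, neg_one_mul, neg_neg, map_one]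
  rcases mul_self_eq_one_iff.mp h1 with h | h
  · exfalso
    have hd : ¬ ℓ ∣ ℓ - 1 := fun hd =>
      absurd (Nat.le_of_dvd (Nat.pos_of_ne_zero hn0) hd) (by have := hℓ.two_le; omega)
    have h3 := hχ (ℓ - 1) hd
    rw [show ((ℓ - 1 : ℕ) : ZMod ℓ) = -1 by rw [Nat.cast_sub hℓ.one_le]; simp, h, one_mul,
      Nat.cast_sub hℓ.one_le, Nat.cast_one, sub_sub, show (1 : ℂ) + 1 = 2 by norm_num] at h3
    have h4 : ((2 : ℕ) : ℂ) ∈ A.nonunits := by
      have := sub_mem hA h3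
      rwa [sub_sub_cancel] at this
    exact h2 ((Nat.prime_dvd_prime_iff_eq hℓ Nat.prime_two).mp
      ((natCast_mem_nonunits_iff A hℓ hA 2).mp h4))
  · exact h

end Fermat.Agent.DeligneSerre
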