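import Fermat.Agent.DeligneSerre.Interface
import Fermat.Agent.DeligneSerre.NebFinite
import Fermat.Agent.DeligneSerre.WeightOne
import Fermat.Agent.DeligneSerre.WeightTwo.EisensteinOne
import Fermat.Agent.DeligneSerre.WeightTwo.TeichmullerChar

/-!
# From weight one to weight two modulo a prime above `ℓ`

With `χ` odd mod `ℓ` and `χ(d) d ≡ 1`, the product of `f` by the Eisenstein series of `χ` is, up to
a scalar, congruent to `f`.
-/

set_option autoImplicit false

noncomputable section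

open UpperHalfPlane CongruenceSubgroup ModularFormClass
open scoped MatrixGroups ModularForm Manifold

namespace Fermat.Agent.DeligneSerre

theorem isZeroAtImInfty_mul {f g : ℍ → ℂ} (hf : IsZeroAtImInfty f) (hg : IsBoundedAtImInfty g) :
    IsZeroAtImInfty (f * g) := by
  have h1 : f =o[atImInfty] (1 : ℍ → ℝ) := Asymptotics.isLittleO_one_iff ℝ |>.mpr hf
  have h2 := h1.mul_isBigO hg
  simp only [Pi.one_apply, mul_one] at h2
  exact (Asymptotics.isLittleO_one_iff ℝ).mp h2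

section product

variable {N l : ℕ} [NeZero N] [NeZero l] {ε : DirichletCharacter ℂ N}
  (χ : DirichletCharacter ℂ l)

/-- The character of `f * eisRaw χ`. -/
def prodChar (ε : DirichletCharacter ℂ N) : DirichletCharacter ℂ (N * l) :=
  DirichletCharacter.changeLevel (dvd_mul_right N l) ε *
    DirichletCharacter.changeLevel (dvd_mul_left l N) χ

theorem prodChar_apply {d : ℤ} (hd : IsCoprime d (N * l : ℕ)) :
    prodChar χ ε (d : ZMod (N * l)) = ε (d : ZMod N) * χ (d : ZMod l) := by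
  rw [prodChar, MulChar.mul_apply, DirichletCharacter.changeLevel_eq_cast_of_dvd' _ _ hd,
    DirichletCharacter.changeLevel_eq_cast_of_dvd' _ _ hd]

theorem hasNeb_mul_eisRaw {f : ℍ → ℂ} (hf : HasNeb 1 ε f) :
    HasNeb 2 (prodChar χ ε) (f * eisRaw χ) := by
  intro γ hγ
  have hc : ((N * l : ℕ) : ℤ) ∣ γ 1 0 :=
    (ZMod.intCast_zmod_eq_zero_iff_dvd _ _).mp (Gamma0_mem.mp hγ)
  have h1 : γ ∈ Gamma0 N := Gamma0_mem.mpr ((ZMod.intCast_zmod_eq_zero_iff_dvd _ _).mpr
    ((Int.natCast_dvd_natCast.mpr (dvd_mul_right N l)).trans hc))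
  have h2 : γ ∈ Gamma0 l := Gamma0_mem.mpr ((ZMod.intCast_zmod_eq_zero_iff_dvd _ _).mpr
    ((Int.natCast_dvd_natCast.mpr (dvd_mul_left l N)).trans hc))
  have hcop : IsCoprime (γ 1 1) ((N * l : ℕ) : ℤ) := by
    obtain ⟨c', hc'⟩ := hc
    refine ⟨γ 0 0, -(γ 0 1 * c'), ?_⟩
    have := γ.det_coe
    rw [Matrix.det_fin_two, hc'] at this
    linear_combination this
  have a := hf γ h1
  have b := hasNeb_eisRaw χ γ h2
  rw [← ModularForm.SL_slash] at a b ⊢
  rw [show (2 : ℤ) = 1 + 1 by norm_num, ModularForm.mul_slash_SL2, a, b, prodChar_apply χ hcop,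
    smul_mul_smul_comm]

/-- The cusp form `f * eisRaw χ`. -/
def mulEisRaw (f : CuspForm (Gamma1 N) 1) (hf : HasNeb 1 ε ⇑f) :
    nebSpace (N * l) (((0 : ℕ) : ℤ) + 2) (prodChar χ ε) :=
  ⟨{  toFun := ⇑f * eisRaw χ
      slash_action_eq' := mem_Gamma1_slash (N * l) _ (prodChar χ ε) (hasNeb_mul_eisRaw χ hf)
      holo' := (CuspFormClass.holo f).mul (mdifferentiable_eisRaw χ)
      zero_at_cusps' := fun {c} hc => by
        rw [Subgroup.IsArithmetic.isCusp_iff_isCusp_SL2Z] at hc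
        rw [OnePoint.isZeroAt_iff_forall_SL2Z hc]
        intro γ hγ
        have hc' : IsCusp c (Gamma1 N : Subgroup (GL (Fin 2) ℝ)) := by
          rwa [Subgroup.IsArithmetic.isCusp_iff_isCusp_SL2Z]
        have h1 := (OnePoint.isZeroAt_iff_forall_SL2Z hc).mp
          (CuspFormClass.zero_at_cusps f hc') γ hγ
        show IsZeroAtImInfty ((⇑f * eisRaw χ) ∣[(((0 : ℕ) : ℤ) + 2)] γ)
        rw [show (((0 : ℕ) : ℤ) + 2) = 1 + 1 by norm_num, ModularForm.mul_slash_SL2]
        exact isZeroAtImInfty_mul h1 (isBoundedAtImInfty_eisRaw_slash χ γ) },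
    hasNeb_mul_eisRaw χ hf⟩

theorem qCoeff_mulEisRaw (f : CuspForm (Gamma1 N) 1) (hf : HasNeb 1 ε ⇑f) (hl : 1 < l)
    (hχ : χ.Odd) (n : ℕ) :
    qCoeffNeb (N * l) (((0 : ℕ) : ℤ) + 2) (prodChar χ ε) n (mulEisRaw χ f hf) =
      ∑ x ∈ Finset.HasAntidiagonal.antidiagonal n, qCoeff f x.1 * eisRawCoeff χ x.2 := by
  show (qExpansion 1 (⇑f * eisRaw χ)).coeff n = _
  rw [UpperHalfPlane.qExpansion_mul
    (ModularFormClass.analyticAt_cuspFunction_zero f one_pos (one_mem_strictPeriods_Gamma1 N))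
    (analyticAt_cuspFunction_eisRaw χ), PowerSeries.coeff_mul]
  simp only [qExpansion_eisRaw hl hχ]
  rfl

end product

/-- `f E₁(ω⁻¹)` is an eigenform mod `λ` of level `Nℓ`. -/
theorem exists_modEigenform_of_weightOne {N : ℕ} [NeZero N] {ε : DirichletCharacter ℂ N}
    {f : CuspForm (Gamma1 N) 1} (hf : IsWeightOneEigen ε f) {ℓ : ℕ} (hℓ : ℓ.Prime) (h5 : 5 ≤ ℓ)
    (hℓN : ¬ ℓ ∣ N) (A : ValuationSubring ℂ) (hA : (ℓ : ℂ) ∈ A.nonunits)
    (hM : NeZero (N * ℓ)) :
    ∃ (ψ : DirichletCharacter ℂ (N * ℓ)) (g : nebSpace (N * ℓ) 2 ψ),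
      IsModEigenform A ψ g (ModularFormClass.qCoeff f) ∧
      ∀ d : ℕ, d.Coprime (N * ℓ) →
        ψ (d : ZMod (N * ℓ)) ∈ A ∧ ε (d : ZMod N) ∈ A ∧
          ψ (d : ZMod (N * ℓ)) * (d : ℂ) - ε (d : ZMod N) ∈ A.nonunits := by
  have : NeZero ℓ := ⟨hℓ.ne_zero⟩
  obtain ⟨χ, hχ, hχd⟩ := exists_inverse_teichmuller A hℓ (by omega) hA
  have hfN : HasNeb 1 ε ⇑f := hf.mem_nebSpace
  set ψ := prodChar χ ε (l := ℓ) with hψ
  have hdiag : ∀ d : ℕ, d.Coprime (N * ℓ) →
      ψ (d : ZMod (N * ℓ)) ∈ A ∧ ε (d : ZMod N) ∈ A ∧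
        ψ (d : ZMod (N * ℓ)) * (d : ℂ) - ε (d : ZMod N) ∈ A.nonunits := by
    intro d hd
    refine ⟨char_mem A ψ _, char_mem A ε _, ?_⟩
    have h := prodChar_apply χ (ε := ε) (d := (d : ℤ)) (l := ℓ) (Nat.isCoprime_iff_coprime.mpr hd)
    simp only [Int.cast_natCast] at h
    have hℓd : ¬ ℓ ∣ d := fun hdd => hℓ.ne_one
      (Nat.eq_one_of_dvd_coprimes hd hdd (dvd_mul_left ℓ N))
    rw [hψ, h, show ε (d : ZMod N) * χ (d : ZMod ℓ) * (d : ℂ) - ε (d : ZMod N) =
      (χ (d : ZMod ℓ) * (d : ℂ) - 1) * ε (d : ZMod N) by ring]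
    exact mul_mem_nonunits A (hχd d hℓd) (char_mem A ε _)
  -- `ℓ B` is a unit
  have hl1 : 1 < ℓ := hℓ.one_lt
  set B := bernoulliOne χ with hBdef
  have hℓB : (ℓ : ℂ) * B ∈ A ∧ (ℓ : ℂ) * B ∉ A.nonunits := by
    have hℓ0 : (ℓ : ℂ) ≠ 0 := by exact_mod_cast hℓ.ne_zero
    have e : (ℓ : ℂ) * B = ∑ a : ZMod ℓ, χ a * (a.val : ℂ) := by
      rw [hBdef, bernoulliOne, Finset.mul_sum]
      refine Finset.sum_congr rfl fun a _ => ?_
      simp only [frc]
      push_cast
      field_simp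
    have h1 : ∀ a ∈ Finset.univ.erase (0 : ZMod ℓ), χ a * (a.val : ℂ) - 1 ∈ A.nonunits := by
      intro a ha
      have := hχd a.val fun hd => (Finset.mem_erase.mp ha).1 <| by
        rw [← ZMod.natCast_zmod_val a]; exact (ZMod.natCast_eq_zero_iff _ _).mpr hd
      rwa [ZMod.natCast_zmod_val] at this
    have h2 : (ℓ : ℂ) * B - ((ℓ - 1 : ℕ) : ℂ) ∈ A.nonunits := by
      have := sum_mem h1
      rw [Finset.sum_sub_distrib, Finset.sum_const, Finset.card_erase_of_mem (Finset.mem_univ _),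
        Finset.card_univ, ZMod.card, nsmul_one, Finset.sum_erase _ (by simp)] at this
      rw [e]
      exact this
    constructor
    · have := add_mem (A.nonunits_subset h2) (natCast_mem A (ℓ - 1) : ((ℓ - 1 : ℕ) : ℂ) ∈ A)
      rwa [sub_add_cancel] at this
    · intro h
      have h3 := sub_mem h h2
      rw [sub_sub_cancel, natCast_mem_nonunits_iff A hℓ hA] at h3
      exact absurd (Nat.le_of_dvd (by omega) h3) (by omega)
  have hB0 : B ≠ 0 := fun h => hℓB.2 (by rw [h, mul_zero]; exact A.nonunits.zero_mem)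
  -- the normalised coefficients of the Eisenstein series
  set E : ℕ → ℂ := fun n => eisRawCoeff χ n / (-B) with hE
  have hE0 : E 0 = 1 := by
    simp only [hE, eisRawCoeff, if_pos, ← hBdef]
    exact div_self (neg_ne_zero.mpr hB0)
  have hEn : ∀ n, 0 < n → E n ∈ A.nonunits := by
    intro n hn
    have hU : -(2 * ∑ d ∈ n.divisors, χ (d : ZMod ℓ)) ∈ A :=
      neg_mem (mul_mem (natCast_mem A 2) (sum_mem fun d _ => char_mem A χ _))
    have := div_mem_nonunits A (mul_mem_nonunits A hA hU) hℓB.1 hℓB.2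
    rw [mul_div_mul_left _ _ (by exact_mod_cast hℓ.ne_zero : (ℓ : ℂ) ≠ 0)] at this
    simp only [hE, eisRawCoeff, if_neg hn.ne']
    rwa [div_neg, ← neg_div]
  set G := mulEisRaw χ f hfN with hG
  set cG : ℕ → ℂ := fun n => qCoeffNeb (N * ℓ) (((0 : ℕ) : ℤ) + 2) ψ n G with hcG
  have hconv : ∀ n, cG n = ∑ x ∈ Finset.HasAntidiagonal.antidiagonal n, qCoeff f x.1 * eisRawCoeff χ x.2 :=
    qCoeff_mulEisRaw χ f hfN hl1 hχ
  -- a coefficient of maximal valuation
  have hf0 : qCoeff f 0 = 0 := CuspFormClass.qExpansion_coeff_zero f one_pos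
    (one_mem_strictPeriods_Gamma1 N)
  have hcG1 : cG 1 ≠ 0 := by
    rw [hconv, Finset.Nat.sum_antidiagonal_succ]
    simp [hf0, hf.1, eisRawCoeff, ← hBdef, hB0]
  obtain ⟨S, hS, hSmem⟩ := exists_fg_qCoeff_mem (N * ℓ) ψ 0 G
  obtain ⟨t, ht, htspan⟩ := (Submodule.fg_span_iff_fg_span_finset_subset (R := ℤ)
    (Set.range cG)).mp (Submodule.FG.of_le hS (Submodule.span_le.mpr
      (Set.range_subset_iff.mpr hSmem)))
  have htne : t.Nonempty := by
    rw [Finset.nonempty_iff_ne_empty]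
    rintro rfl
    have : cG 1 ∈ Submodule.span ℤ (Set.range cG) := Submodule.subset_span ⟨1, rfl⟩
    rw [htspan] at this
    simp [hcG1] at this
  obtain ⟨a, hat, hamax⟩ := t.exists_max_image A.valuation htne
  obtain ⟨n0, hn0⟩ := ht (Finset.mem_coe.mpr hat)
  have ha0 : a ≠ 0 := by
    intro h
    have h1 : Submodule.span ℤ (↑t : Set ℂ) = ⊥ := by
      rw [Submodule.span_eq_bot]
      intro x hx
      have := hamax x hx
      rw [h, map_zero, le_zero_iff, map_eq_zero] at this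
      exact this
    have : cG 1 ∈ Submodule.span ℤ (Set.range cG) := Submodule.subset_span ⟨1, rfl⟩
    rw [htspan, h1] at this
    exact hcG1 ((Submodule.mem_bot ℤ).mp this)
  have hint : ∀ n, cG n / a ∈ A := by
    intro n
    have hn : cG n ∈ Submodule.span ℤ (↑t : Set ℂ) := htspan ▸ Submodule.subset_span ⟨n, rfl⟩
    generalize cG n = y at hn ⊢
    induction hn using Submodule.span_induction with
    | mem x hx =>
      rw [← A.valuation_le_one_iff, map_div₀, div_le_one₀ (zero_lt_iff.mpr (by simpa using ha0))]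
      exact hamax x hx
    | zero => simp
    | add x y _ _ hx hy => rw [add_div]; exact add_mem hx hy
    | smul z x _ hx => rw [zsmul_eq_mul, mul_div_assoc]; exact mul_mem (intCast_mem A z) hx
  -- comparison with `f`
  set f' : ℕ → ℂ := fun n => qCoeff f n * (-B) / a with hf'
  set g' : ℕ → ℂ := fun n => cG n / a with hg'
  have hrec : ∀ n, g' n - f' n =
      ∑ x ∈ (Finset.HasAntidiagonal.antidiagonal n).erase (n, 0), f' x.1 * E x.2 := by
    intro n
    rw [Finset.sum_erase_eq_sub (by simp), hE0, mul_one]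
    congr 1
    rw [hg', hf']
    simp only [hconv, Finset.sum_div, hE]
    refine Finset.sum_congr rfl fun x _ => ?_
    field_simp
  have hsmall : ∀ n, (∀ m < n, f' m ∈ A) → g' n - f' n ∈ A.nonunits := by
    intro n hn
    rw [hrec]
    refine sum_mem fun x hx => ?_
    obtain ⟨hne, hx⟩ := Finset.mem_erase.mp hx
    rw [Finset.HasAntidiagonal.mem_antidiagonal] at hx
    have h2 : x.2 ≠ 0 := fun h => hne (Prod.ext (by omega) h)
    rw [mul_comm]
    exact mul_mem_nonunits A (hEn _ (Nat.pos_of_ne_zero h2)) (hn _ (by omega))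
  have hf'A : ∀ n, f' n ∈ A := fun n => by
    induction n using Nat.strong_induction_on with
    | _ n ih =>
      have := sub_mem (hint n) (A.nonunits_subset (hsmall n ih))
      rwa [sub_sub_cancel] at this
  have hcong : ∀ n, g' n - f' n ∈ A.nonunits := fun n => hsmall n fun m _ => hf'A m
  -- the scaled form
  let g : nebSpace (N * ℓ) 2 ψ := a⁻¹ • (G : nebSpace (N * ℓ) (((0 : ℕ) : ℤ) + 2) ψ)
  have hg : ∀ n, qCoeffNeb (N * ℓ) 2 ψ n g = g' n := fun n => by
    show qCoeffNeb (N * ℓ) (((0 : ℕ) : ℤ) + 2) ψ n (a⁻¹ • G) = _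
    rw [map_smul, smul_eq_mul, hg', inv_mul_eq_div]
  refine ⟨ψ, g, ⟨fun n => ?_, ⟨n0, ?_⟩, fun p hp hpM => ?_⟩, hdiag⟩
  · rw [← qCoeffNeb_apply, hg]; exact hint n
  · rw [← qCoeffNeb_apply, hg, hg']
    dsimp only
    rw [hn0, div_self ha0, A.mem_nonunits_iff, map_one]
    exact lt_irrefl 1
  · have hpN : ¬ p ∣ N := fun h => hpM (h.mul_right ℓ)
    have hap : qCoeff f p ∈ A := by
      obtain ⟨y, hy⟩ := IsIntegrallyClosed.isIntegral_iff.mp
        ((hf.isIntegral_qCoeff hp hpN).tower_top (A := A))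
      rw [← hy]
      exact y.2
    refine ⟨hap, fun n => ?_⟩
    obtain ⟨-, hεA, hψp⟩ := hdiag p (hp.coprime_iff_not_dvd.mpr hpM)
    rw [← qCoeffNeb_apply, ← qCoeffNeb_apply, qCoeffNeb_nebOp hp g n]
    simp only [hg]
    have hrel := hf.2 p hp hpN n
    have hrel' : f' (p * n) + ε (p : ZMod N) * (if p ∣ n then f' (n / p) else 0) =
        qCoeff f p * f' n := by
      simp only [hf']
      split_ifs at hrel ⊢ <;> linear_combination (-B / a) * hrel
    rw [mul_comm n p]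
    by_cases hpn : p ∣ n
    · rw [if_pos hpn] at hrel' ⊢
      rw [show ((2 : ℤ) - 1) = 1 by norm_num, zpow_one,
        show g' (p * n) + ψ (p : ZMod (N * ℓ)) * ((p : ℂ) * g' (n / p)) - qCoeff f p * g' n =
          (g' (p * n) - f' (p * n)) +
            (ψ (p : ZMod (N * ℓ)) * (p : ℂ) - ε (p : ZMod N)) * g' (n / p) +
            ((g' (n / p) - f' (n / p)) * ε (p : ZMod N) - (g' n - f' n) * qCoeff f p) by
          linear_combination hrel']
      exact add_mem (add_mem (hcong _) (mul_mem_nonunits A hψp (hint _)))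
        (sub_mem (mul_mem_nonunits A (hcong _) hεA) (mul_mem_nonunits A (hcong _) hap))
    · rw [if_neg hpn, mul_zero, add_zero] at hrel' ⊢
      rw [show g' (p * n) - qCoeff f p * g' n =
        (g' (p * n) - f' (p * n)) - (g' n - f' n) * qCoeff f p by linear_combination hrel']
      exact sub_mem (hcong _) (mul_mem_nonunits A (hcong _) hap)

end Fermat.Agent.DeligneSerre
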