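import Fermat.Agent.DeligneSerre.Interface
import Fermat.Agent.DeligneSerre.Periods.EigenCohomology

/-!
# A mod `λ` eigenform gives a class in cuspidal cohomology mod `ℓ`

Owner helper52.
-/

set_option autoImplicit false

noncomputable section

open CongruenceSubgroup

namespace Fermat.Agent.DeligneSerre

/-- The values of a Dirichlet character lie in every valuation subring of `ℂ`. -/
theorem dirichletCharacter_mem {M : ℕ} [NeZero M] (ψ : DirichletCharacter ℂ M)
    (A : ValuationSubring ℂ) (x : ZMod M) : ψ x ∈ A := by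
  by_cases hx : IsUnit x
  · obtain ⟨u, rfl⟩ := hx
    obtain ⟨n, hn, hpow⟩ : ∃ n, 0 < n ∧ u ^ n = 1 := (isOfFinOrder_of_finite u).exists_pow_eq_one
    have h1 : ψ (u : ZMod M) ^ n = 1 := by
      rw [← map_pow, ← Units.val_pow_eq_pow_val, hpow, Units.val_one, map_one]
    rw [← A.valuation_le_one_iff]
    by_contra h
    have hlt : 1 < A.valuation (ψ (u : ZMod M)) := not_le.mp h
    have := one_lt_pow₀ hlt hn.ne'
    rw [← map_pow, h1, map_one] at this
    exact lt_irrefl _ this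
  · rw [ψ.map_nonunit hx]
    exact A.zero_mem

/-- The eigensystem of a mod `λ` eigenform occurs in `cuspidalHoms (Γ₁ M)` mod `λ`. -/
theorem occursIn_of_isModEigenform {M : ℕ} [NeZero M] {ℓ : ℕ} (hℓ : ℓ.Prime) (_hℓM : ℓ ∣ M)
    (A : ValuationSubring ℂ) (hA : (ℓ : ℂ) ∈ A.nonunits) {ψ : DirichletCharacter ℂ M}
    {g : nebSpace M 2 ψ} {a : ℕ → ℂ} (hg : IsModEigenform A ψ g a)
    (ā : ℕ → IsLocalRing.ResidueField A) (χ : DirichletCharacter (IsLocalRing.ResidueField A) M)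
    (ha : ∀ p : ℕ, p.Prime → ¬ p ∣ M → ∀ h : a p ∈ A, ā p = IsLocalRing.residue A ⟨a p, h⟩)
    (hχ : ∀ (x : ZMod M) (h : ψ x ∈ A), χ x = IsLocalRing.residue A ⟨ψ x, h⟩) :
    OccursIn M (IsLocalRing.ResidueField A) ā χ := by
  have : Fact ℓ.Prime := ⟨hℓ⟩
  have := charP_residueField_of_mem_nonunits ℓ A hA
  obtain ⟨hint, ⟨n₀, hn₀⟩, hT⟩ := hg
  let Aco : ℕ → A := fun n => ⟨qCoeffNeb M 2 ψ n g, hint n⟩
  let e : ZMod M → A := fun x => ⟨ψ x, dirichletCharacter_mem ψ A x⟩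
  have hn₀' : IsLocalRing.residue A (Aco n₀) ≠ 0 := by
    rw [Ne, IsLocalRing.residue_eq_zero_iff, ← ValuationSubring.coe_mem_nonunits_iff]
    exact hn₀
  have hc : ∀ p : ℕ, p.Prime → p.Coprime M → ∀ n,
      IsLocalRing.residue A
          (Aco (n * p) + e (p : ZMod M) * (if p ∣ n then (p : A) * Aco (n / p) else 0))
        = ā p * IsLocalRing.residue A (Aco n) := by
    intro p hp hpM n
    have hpM' : ¬ p ∣ M := hp.coprime_iff_not_dvd.mp hpM
    obtain ⟨hap, hcong⟩ := hT p hp hpM'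
    rw [ha p hp hpM' hap, ← map_mul, ← sub_eq_zero, ← map_sub, IsLocalRing.residue_eq_zero_iff,
      ← ValuationSubring.coe_mem_nonunits_iff]
    have h := hcong n
    rw [← qCoeffNeb_apply, ← qCoeffNeb_apply, qCoeffNeb_nebOp] at h
    convert h using 1
    split_ifs <;> simp [Aco, e]
  obtain ⟨φ, hφ, hφ0, h1, h2⟩ := exists_eigenHom_of_residue (ψ := ψ) ℓ A g Aco (fun _ => rfl)
    n₀ hn₀' e (fun _ => rfl) ā hc
  exact ⟨φ, hφ, hφ0, h1, fun δ => (h2 δ).trans (by rw [hχ _ (dirichletCharacter_mem ψ A _)])⟩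

end Fermat.Agent.DeligneSerre
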