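import Fermat.Agent.DeligneSerre.FunctionFieldH.WPExpansion

/-!
# The weight one `q`-series `zetaT t z`

`zetaT t z = (1+u)/(2(1-u)) + ∑_{m ≥ 1} (g (Qᵐ u) - g (Qᵐ / u))` with `g x = x/(1-x)`, `u = e(z)`,
`Q = e(t)`: a normalisation of the Weierstrass zeta function. Its behaviour under `t ↦ -1/t` is
deduced from that of `℘`.
-/

set_option autoImplicit false

noncomputable section

open Complex Filter Topology
open UpperHalfPlane hiding I
open scoped Real
open Fermat.Agent.Mazur.Moduli (tauPair)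

namespace Fermat.Agent.DeligneSerre

/-- `x / (1 - x)`. -/
def lamF (x : ℂ) : ℂ := x / (1 - x)

/-- `(1 + x) / (2 (1 - x))`. -/
def lamH (x : ℂ) : ℂ := (1 + x) / (2 * (1 - x))

theorem one_sub_ne_zero_of_norm_lt_one {x : ℂ} (h : ‖x‖ < 1) : 1 - x ≠ 0 := fun h0 => by
  rw [sub_eq_zero] at h0
  simp [← h0] at h

theorem norm_lamF_le {x : ℂ} {ρ : ℝ} (hx : ‖x‖ ≤ ρ) (hρ : ρ < 1) :
    ‖lamF x‖ ≤ ‖x‖ / (1 - ρ) := by
  rw [lamF, norm_div]
  refine div_le_div_of_nonneg_left (norm_nonneg x) (by linarith) ?_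
  have := norm_sub_norm_le (1 : ℂ) x
  rw [norm_one] at this
  linarith

theorem norm_rowF_le {x : ℂ} {ρ : ℝ} (hx : ‖x‖ ≤ ρ) (hρ : ρ < 1) :
    ‖rowF x‖ ≤ ‖x‖ / (1 - ρ) ^ 2 := by
  rw [rowF, norm_div, norm_pow]
  refine div_le_div_of_nonneg_left (norm_nonneg x) (by nlinarith) ?_
  have := norm_sub_norm_le (1 : ℂ) x
  rw [norm_one] at this
  exact pow_le_pow_left₀ (by linarith) (by linarith) 2

theorem norm_expTwoPiI (w : ℂ) : ‖expTwoPiI w‖ = Real.exp (-(2 * π * w.im)) := by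
  rw [expTwoPiI, Complex.norm_exp]
  simp

/-- The general term of `zetaT`. -/
def zetaTerm (t z : ℂ) (m : ℕ) : ℂ :=
  lamF (expTwoPiI ((m + 1) * t + z)) - lamF (expTwoPiI ((m + 1) * t - z))

/-- The normalised zeta series. -/
def zetaT (t z : ℂ) : ℂ := lamH (expTwoPiI z) + ∑' m : ℕ, zetaTerm t z m

/-- Uniform geometric decay of `e((m+1) t ± z)`. -/
theorem norm_exp_arg_le {t z : ℂ} {δ η : ℝ} (hδ : δ ≤ t.im) (hz : |z.im| ≤ t.im - η) (m : ℕ) :
    ‖expTwoPiI ((m + 1) * t + z)‖ ≤ Real.exp (-(2 * π * η)) * Real.exp (-(2 * π * δ)) ^ m ∧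
    ‖expTwoPiI ((m + 1) * t - z)‖ ≤ Real.exp (-(2 * π * η)) * Real.exp (-(2 * π * δ)) ^ m := by
  obtain ⟨h1, h2⟩ := abs_le.mp hz
  have hm : (m : ℝ) * δ ≤ m * t.im := mul_le_mul_of_nonneg_left hδ (Nat.cast_nonneg m)
  rw [norm_expTwoPiI, norm_expTwoPiI, ← Real.exp_nat_mul, ← Real.exp_add]
  constructor <;> rw [Real.exp_le_exp] <;> simp <;> nlinarith [Real.pi_pos]

/-- The bound used for all the uniform convergence statements. -/
def zetaBound (δ η : ℝ) (m : ℕ) : ℝ :=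
  2 * (Real.exp (-(2 * π * η)) * Real.exp (-(2 * π * δ)) ^ m / (1 - Real.exp (-(2 * π * η))))

theorem summable_zetaBound {δ η : ℝ} (hδ : 0 < δ) : Summable (zetaBound δ η) := by
  have h : Real.exp (-(2 * π * δ)) < 1 := by
    rw [Real.exp_lt_one_iff]
    have : 0 < 2 * π * δ := by positivity
    linarith
  exact (((summable_geometric_of_lt_one (Real.exp_pos _).le h).mul_left _).div_const _).mul_left 2

theorem arg_bounds {δ η : ℝ} (hδ : 0 < δ) (hη : 0 < η) :
    Real.exp (-(2 * π * η)) < 1 ∧ ∀ m : ℕ,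
      Real.exp (-(2 * π * η)) * Real.exp (-(2 * π * δ)) ^ m ≤ Real.exp (-(2 * π * η)) := by
  refine ⟨?_, fun m => ?_⟩
  · rw [Real.exp_lt_one_iff]
    have : 0 < 2 * π * η := by positivity
    linarith
  · refine mul_le_of_le_one_right (Real.exp_pos _).le (pow_le_one₀ (Real.exp_pos _).le ?_)
    rw [Real.exp_le_one_iff]
    have : 0 < 2 * π * δ := by positivity
    linarith

theorem norm_zetaTerm_le {t z : ℂ} {δ η : ℝ} (hδ0 : 0 < δ) (hη : 0 < η) (hδ : δ ≤ t.im)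
    (hz : |z.im| ≤ t.im - η) (m : ℕ) : ‖zetaTerm t z m‖ ≤ zetaBound δ η m := by
  obtain ⟨h1, h2⟩ := norm_exp_arg_le hδ hz m
  obtain ⟨hρ, hle⟩ := arg_bounds hδ0 hη
  have hpos : 0 ≤ 1 - Real.exp (-(2 * π * η)) := by linarith
  rw [zetaTerm, zetaBound, two_mul]
  exact (norm_sub_le _ _).trans (add_le_add
    ((norm_lamF_le (h1.trans (hle m)) hρ).trans (div_le_div_of_nonneg_right h1 hpos))
    ((norm_lamF_le (h2.trans (hle m)) hρ).trans (div_le_div_of_nonneg_right h2 hpos)))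

theorem zetaTerm_arg_ne_zero {t z : ℂ} (hz : |z.im| < t.im) (m : ℕ) :
    1 - expTwoPiI ((m + 1) * t + z) ≠ 0 ∧ 1 - expTwoPiI ((m + 1) * t - z) ≠ 0 := by
  obtain ⟨h1, h2⟩ := abs_lt.mp hz
  have : 0 ≤ (m : ℝ) * t.im := mul_nonneg (Nat.cast_nonneg m) (by linarith)
  constructor <;> apply one_sub_ne_zero_of_norm_lt_one <;> apply norm_expTwoPiI_lt_one <;>
    simp <;> nlinarith

theorem summable_zetaTerm {t z : ℂ} (hz : |z.im| < t.im) : Summable (zetaTerm t z) := by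
  have ht : 0 < t.im := lt_of_le_of_lt (abs_nonneg _) hz
  exact Summable.of_norm_bounded (summable_zetaBound ht)
    fun m => norm_zetaTerm_le ht (by linarith : 0 < t.im - |z.im|) le_rfl (by linarith) m

theorem expTwoPiI_add_one (w : ℂ) : expTwoPiI (w + 1) = expTwoPiI w := by
  rw [expTwoPiI_add, show expTwoPiI 1 = 1 from expTwoPiI_eq_one_iff.2 ⟨1, by simp⟩, mul_one]

theorem expTwoPiI_sub_one (w : ℂ) : expTwoPiI (w - 1) = expTwoPiI w := by
  rw [← expTwoPiI_add_one (w - 1), sub_add_cancel]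

theorem zetaT_add_one (t z : ℂ) : zetaT t (z + 1) = zetaT t z := by
  simp only [zetaT, zetaTerm, expTwoPiI_add_one, sub_add_eq_sub_sub, ← add_assoc,
    expTwoPiI_sub_one]

theorem zetaT_t_add_one (t z : ℂ) : zetaT (t + 1) z = zetaT t z := by
  have h : ∀ m : ℕ, ((m : ℂ) + 1) * (t + 1) + z = ((m : ℂ) + 1) * t + z + ((m + 1 : ℕ) : ℤ) ∧
      ((m : ℂ) + 1) * (t + 1) - z = ((m : ℂ) + 1) * t - z + ((m + 1 : ℕ) : ℤ) := fun m => by
    constructor <;> push_cast <;> ring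
  have hn : ∀ (w : ℂ) (n : ℤ), expTwoPiI (w + n) = expTwoPiI w := fun w n => by
    rw [expTwoPiI_add, show expTwoPiI (n : ℂ) = 1 from expTwoPiI_eq_one_iff.2 ⟨n, rfl⟩, mul_one]
  simp only [zetaT, zetaTerm, (h _).1, (h _).2, hn]

theorem lamH_inv {x : ℂ} (hx : x ≠ 0) : lamH x⁻¹ = -lamH x := by
  rw [lamH, lamH]
  rcases eq_or_ne x 1 with rfl | h1
  · simp
  have : 1 - x ≠ 0 := sub_ne_zero.2 (Ne.symm h1)
  have : x - 1 ≠ 0 := sub_ne_zero.2 h1
  field_simp
  ring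

theorem zetaT_neg {t z : ℂ} : zetaT t (-z) = -zetaT t z := by
  have h : ∀ m, zetaTerm t (-z) m = -zetaTerm t z m := fun m => by
    rw [zetaTerm, zetaTerm, ← sub_eq_add_neg, sub_neg_eq_add]
    ring
  rw [zetaT, zetaT, expTwoPiI_neg, lamH_inv (expTwoPiI_ne_zero z), tsum_congr h, tsum_neg]
  ring

/-- The value at a half period. -/
theorem zetaT_half {t : ℂ} (ht : 0 < t.im) : zetaT t (1 / 2 + t / 2) = 1 / 2 := by
  set b : ℕ → ℂ := fun m => lamF (expTwoPiI (1 / 2 + ((2 * m + 1 : ℕ) : ℂ) * (t / 2))) with hb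
  have hterm : ∀ m, zetaTerm t (1 / 2 + t / 2) m = b (m + 1) - b m := by
    intro m
    rw [zetaTerm, hb]
    congr 2
    · congr 1
      push_cast
      ring
    · rw [← expTwoPiI_add_one]
      congr 1
      push_cast
      ring
  have hs : Summable (zetaTerm t (1 / 2 + t / 2)) :=
    summable_zetaTerm (by simp [abs_of_pos, ht])
  have hlim : Tendsto b atTop (𝓝 0) := by
    have h0 : Tendsto (fun m : ℕ => expTwoPiI (1 / 2 + ((2 * m + 1 : ℕ) : ℂ) * (t / 2))) atTop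
        (𝓝 0) := by
      have hlt : ‖expTwoPiI t‖ < 1 := norm_expTwoPiI_lt_one ht
      have := (tendsto_pow_atTop_nhds_zero_of_norm_lt_one hlt).const_mul
        (expTwoPiI (1 / 2 + t / 2))
      rw [mul_zero] at this
      refine this.congr fun m => ?_
      rw [← expTwoPiI_nat_mul, ← expTwoPiI_add]
      congr 1
      push_cast
      ring
    have hc : ContinuousAt lamF 0 := by
      unfold lamF
      exact ContinuousAt.div (by fun_prop) (by fun_prop) (by simp)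
    have h := hc.tendsto.comp h0
    simp only [lamF, zero_div] at h
    exact h
  have htel : HasSum (zetaTerm t (1 / 2 + t / 2)) (-b 0) := by
    refine (hs.hasSum_iff_tendsto_nat).2 ?_
    simp only [hterm, Finset.sum_range_sub b]
    simpa using hlim.sub_const (b 0)
  rw [zetaT, htel.tsum_eq, hb]
  simp only [Nat.mul_zero, zero_add, Nat.cast_one, one_mul]
  set x := expTwoPiI (1 / 2 + t / 2)
  have hx : 1 - x ≠ 0 := one_sub_ne_zero_of_norm_lt_one (norm_expTwoPiI_lt_one (by simp [ht]))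
  rw [lamH, lamF]
  field_simp
  ring

/-- The constant `1/12 - 2 ∑ rowF (Qᵐ)`. -/
def zetaConst (t : ℂ) : ℂ := 1 / 12 - ∑' m : ℕ, 2 * rowF (expTwoPiI t ^ (m + 1))

theorem hasDerivAt_lamF_exp {f : ℂ → ℂ} {f' z : ℂ} (hf : HasDerivAt f f' z)
    (h : 1 - expTwoPiI (f z) ≠ 0) :
    HasDerivAt (fun w => lamF (expTwoPiI (f w))) (2 * π * I * f' * rowF (expTwoPiI (f z))) z := by
  have he := (hasDerivAt_expTwoPiI (f z)).comp z hf
  refine (he.div (he.const_sub 1) h).congr_deriv ?_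
  simp only [Function.comp_apply, rowF]
  field_simp
  ring

theorem hasDerivAt_zetaT {t : ℍ} {z : ℂ} (hz : z ∈ nonInteger) (hs : |z.im| < t.im) :
    HasDerivAt (zetaT t) ((tauPair t).weierstrassP z / (2 * π * I) - 2 * π * I * zetaConst t) z := by
  obtain ⟨η, hη, hzη⟩ : ∃ η : ℝ, 0 < η ∧ |z.im| < t.im - η :=
    ⟨(t.im - |z.im|) / 2, by linarith, by linarith⟩
  set U : Set ℂ := {w | |w.im| < t.im - η} with hU
  have hUo : IsOpen U := isOpen_lt (by fun_prop) continuous_const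
  have hbd : ∀ (m : ℕ) (w : ℂ), w ∈ U → ‖zetaTerm t w m‖ ≤ zetaBound t.im η m :=
    fun m w hw => norm_zetaTerm_le t.im_pos hη le_rfl (le_of_lt hw) m
  have hsu : Summable (zetaBound t.im η) := summable_zetaBound t.im_pos
  have hd : ∀ (m : ℕ) (w : ℂ), w ∈ U → HasDerivAt (fun v => zetaTerm t v m)
      (2 * π * I * (rowF (expTwoPiI ((m + 1) * t + w)) + rowF (expTwoPiI ((m + 1) * t - w)))) w := by
    intro m w hw
    obtain ⟨h1, h2⟩ := zetaTerm_arg_ne_zero (t := (t : ℂ)) (z := w)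
      (lt_of_lt_of_le hw (by simp [hη.le])) m
    refine ((hasDerivAt_lamF_exp ((hasDerivAt_id w).const_add _) h1).sub
      (hasDerivAt_lamF_exp ((hasDerivAt_id w).const_sub _) h2)).congr_deriv ?_
    simp only [id_eq]
    ring
  have hzU : z ∈ U := hzη
  have hdiffm : ∀ m, DifferentiableOn ℂ (fun v => zetaTerm t v m) U :=
    fun m w hw => (hd m w hw).differentiableAt.differentiableWithinAt
  have hsum := hasSum_deriv_of_summable_norm hsu hdiffm hUo hbd hzU
  simp only [fun m => (hd m z hzU).deriv] at hsum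
  have hdiff : DifferentiableAt ℂ (fun v => ∑' m, zetaTerm t v m) z :=
    (differentiableOn_tsum_of_summable_norm hsu hdiffm hUo hbd).differentiableAt
      (hUo.mem_nhds hzU)
  have hh : HasDerivAt (fun v => lamH (expTwoPiI v)) (2 * π * I * rowF (expTwoPiI z)) z := by
    have he := hasDerivAt_expTwoPiI z
    have h1 := one_sub_expTwoPiI_ne_zero hz
    refine ((he.const_add 1).div ((he.const_sub 1).const_mul 2)
      (mul_ne_zero two_ne_zero h1)).congr_deriv ?_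
    simp only [rowF]
    field_simp
    ring
  refine (hh.add hdiff.hasDerivAt).congr_deriv ?_
  -- compare with the `q`-expansion of `℘`
  have hsR : Summable fun m : ℕ => 2 * rowF (expTwoPiI (t : ℂ) ^ (m + 1)) := by
    have hlt := norm_expTwoPiI_lt_one t.im_pos
    refine Summable.mul_left 2 (Summable.of_norm_bounded
      ((summable_geometric_of_lt_one (norm_nonneg _) hlt).mul_left
        (‖expTwoPiI (t : ℂ)‖ / (1 - ‖expTwoPiI (t : ℂ)‖) ^ 2)) fun m => ?_)
    refine (norm_rowF_le (ρ := ‖expTwoPiI (t : ℂ)‖) ?_ hlt).trans (le_of_eq ?_)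
    · rw [norm_pow]; exact pow_le_of_le_one (norm_nonneg _) hlt.le (Nat.succ_ne_zero m)
    · rw [norm_pow, pow_succ]; ring
  have hpair : ∀ m : ℕ, expTwoPiI (((m : ℂ) + 1) * t + z) =
      expTwoPiI (t : ℂ) ^ (m + 1) * expTwoPiI z ∧
      expTwoPiI (((m : ℂ) + 1) * t - z) = expTwoPiI (t : ℂ) ^ (m + 1) / expTwoPiI z := fun m => by
    rw [sub_eq_add_neg, expTwoPiI_add, expTwoPiI_add, expTwoPiI_neg, ← expTwoPiI_nat_mul,
      div_eq_mul_inv]
    push_cast
    exact ⟨rfl, rfl⟩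
  simp only [(hpair _).1, (hpair _).2] at hsum
  have hS := hsum.summable.mul_left (2 * π * I : ℂ)⁻¹
  simp only [inv_mul_cancel_left₀ two_pi_I_ne_zero] at hS
  have hP : (tauPair t).weierstrassP z =
      (2 * π * I) ^ 2 * tateX (expTwoPiI z) (expTwoPiI t) := by
    rcases le_total 0 z.im with h0 | h0
    · exact weierstrassP_eq_tateX hz h0 (lt_of_le_of_lt (le_abs_self _) hs)
    · have hz' : -z ∈ nonInteger := mem_nonInteger.2 fun n hn =>
        mem_nonInteger.1 hz (-n) (by push_cast; rw [← hn, neg_neg])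
      rw [← PeriodPair.weierstrassP_neg, weierstrassP_eq_tateX hz' (by simpa using h0)
        (by simpa using lt_of_le_of_lt (neg_le_abs _) hs), expTwoPiI_neg, tateX, tateX, rowF_inv]
      congr 2
      refine tsum_congr fun m => ?_
      rw [div_inv_eq_mul, ← div_eq_mul_inv]
      ring
  rw [← hsum.tsum_eq, hP, tateX, hS.tsum_sub hsR, tsum_mul_left, zetaConst]
  field_simp
  ring_nf

/-- Homogeneity of `℘` under `t ↦ -1/t`. -/
theorem weierstrassP_S_smul (t : ℍ) (z : ℂ) :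
    (tauPair (ModularGroup.S • t)).weierstrassP (z / t) =
      (t : ℂ) ^ 2 * (tauPair t).weierstrassP z := by
  have h1 := ((tauLatticeEquiv (ModularGroup.S • t)).hasSum_iff).2
    ((tauPair (ModularGroup.S • t)).hasSum_weierstrassP (z / t))
  have h2 := (((tauLatticeEquiv t).hasSum_iff).2
    ((tauPair t).hasSum_weierstrassP z)).mul_left ((t : ℂ) ^ 2)
  let e : ℤ × ℤ ≃ ℤ × ℤ := ⟨fun x => (x.2, -x.1), fun x => (-x.2, x.1),
    fun x => by simp, fun x => by simp⟩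
  refine h1.unique (((e.hasSum_iff).2 h2).congr_fun fun x => ?_)
  have ht : (t : ℂ) ≠ 0 := t.ne_zero
  have hS : ((ModularGroup.S • t : ℍ) : ℂ) = (-(t : ℂ))⁻¹ := by
    rw [UpperHalfPlane.modular_S_smul]
  simp only [Function.comp_apply, coe_tauLatticeEquiv, hS, e, Equiv.coe_fn_mk]
  push_cast
  rw [show z / (t : ℂ) - ((x.1 : ℂ) * (-(t : ℂ))⁻¹ + x.2) =
      (z - ((x.2 : ℂ) * t + -(x.1 : ℂ))) / t by field_simp; ring,
    show (x.1 : ℂ) * (-(t : ℂ))⁻¹ + x.2 = ((x.2 : ℂ) * t + -(x.1 : ℂ)) / t by field_simp; ring,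
    div_pow, div_pow, one_div_div, one_div_div]
  ring

/-- `{x t + y : |x|, |y| < 1, (x, y) ≠ 0}`. -/
def punctBox (t : ℂ) : Set ℂ :=
  {z | ∃ x y : ℝ, |x| < 1 ∧ |y| < 1 ∧ (x ≠ 0 ∨ y ≠ 0) ∧ z = x * t + y}

/-- The transformation of `zetaT` under `t ↦ -1/t`. -/
theorem zetaT_S_smul (t : ℍ) {x y : ℝ} (hx : |x| < 1) (hy : |y| < 1) (h : x ≠ 0 ∨ y ≠ 0) :
    zetaT (ModularGroup.S • t : ℍ) (((x : ℂ) * t + y) / t) =
      (t : ℂ) * zetaT t ((x : ℂ) * t + y) - ((x : ℂ) * t + y) := by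
  have ht : (t : ℂ) ≠ 0 := t.ne_zero
  set t' : ℍ := ModularGroup.S • t with ht'
  have hS : (t' : ℂ) = -1 / (t : ℂ) := by
    rw [ht', UpperHalfPlane.modular_S_smul]
    show (-(t : ℂ))⁻¹ = _
    rw [inv_neg, neg_div, one_div]
  -- real coordinates
  set cx : ℂ → ℝ := fun z => z.im / t.im with hcx
  set cy : ℂ → ℝ := fun z => z.re - z.im / t.im * t.re with hcy
  have hzc : ∀ z : ℂ, z = (cx z : ℂ) * t + cy z := fun z => by
    apply Complex.ext <;> simp [cx, cy, t.im_pos.ne']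
  have hcxy : ∀ a b : ℝ, cx ((a : ℂ) * t + b) = a ∧ cy ((a : ℂ) * t + b) = b := fun a b => by
    simp [cx, cy, t.im_pos.ne']
  set Ψ : ℂ → ℂ := fun z => zetaT t' (z / t) / t - zetaT t z + z / t with hΨ
  set D : Set ℂ := {z | |cx z| < 1 ∧ |cy z| < 1 ∧ (cx z ≠ 0 ∨ cy z ≠ 0)} with hD
  have hne : ∀ z ∈ D, z ∈ nonInteger ∧ |z.im| < t.im ∧ z / t ∈ nonInteger ∧
      |(z / (t : ℂ)).im| < t'.im := by
    intro z ⟨h1, h2, h3⟩
    have e1 : z / (t : ℂ) = (-cy z : ℝ) * (t' : ℂ) + (cx z : ℝ) := by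
      conv_lhs => rw [hzc z]
      rw [hS]; push_cast; field_simp; ring
    have him : z.im = cx z * t.im := by simp [cx, t.im_pos.ne']
    have him' : (z / (t : ℂ)).im = -cy z * t'.im := by rw [e1]; simp
    have key : ∀ a : ℝ, |a| < 1 → ∀ n : ℤ, a = n → a = 0 := fun a ha n hn => by
      rw [hn] at ha ⊢
      rw [← Int.cast_abs, ← Int.cast_one (R := ℝ), Int.cast_lt, Int.abs_lt_one_iff] at ha
      simp [ha]
    refine ⟨?_, ?_, ?_, ?_⟩
    · refine mem_nonInteger.2 fun n hn => ?_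
      have ha : cx z = 0 := by simp [cx, hn]
      have hb : cy z = (n : ℝ) := by simp [cy, hn]
      exact h3.elim (fun h => h ha) fun h => h (key _ h2 n hb)
    · rw [him, abs_mul, abs_of_pos t.im_pos]
      exact mul_lt_of_lt_one_left t.im_pos h1
    · refine mem_nonInteger.2 fun n hn => ?_
      have hb : cy z = 0 := by
        have := congrArg Complex.im hn
        rw [him'] at this
        simpa [t'.im_pos.ne'] using this
      have ha : cx z = (n : ℝ) := by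
        have := congrArg Complex.re hn
        rw [e1, hb] at this
        simpa using this
      exact h3.elim (fun h => h (key _ h1 n ha)) fun h => h hb
    · rw [him', abs_mul, abs_neg, abs_of_pos t'.im_pos]
      exact mul_lt_of_lt_one_left t'.im_pos h2
  set c : ℂ := -(2 * π * I) * zetaConst t' / t ^ 2 + 2 * π * I * zetaConst t + 1 / t with hc
  have hderiv : ∀ z ∈ D, HasDerivAt Ψ c z := by
    intro z hz
    obtain ⟨h1, h2, h3, h4⟩ := hne z hz
    have d1 := ((hasDerivAt_zetaT h3 h4).comp z ((hasDerivAt_id z).div_const (t : ℂ))).div_const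
      (t : ℂ)
    refine ((d1.sub (hasDerivAt_zetaT h1 h2)).add
      ((hasDerivAt_id z).div_const (t : ℂ))).congr_deriv ?_
    rw [ht', weierstrassP_S_smul, hc, ← ht']
    field_simp
    ring
  -- `Ψ - c z` is constant on each of four convex pieces
  have hconst : ∀ (P : ℝ → ℝ → Prop), Convex ℝ {z : ℂ | P (cx z) (cy z)} →
      (∀ a b, P a b → |a| < 1 ∧ |b| < 1 ∧ (a ≠ 0 ∨ b ≠ 0)) → ∀ {a b a' b' : ℝ}, P a b → P a' b' →
      Ψ (a * t + b) - c * (a * t + b) = Ψ (a' * t + b') - c * (a' * t + b') := by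
    intro P hconv hP a b a' b' hab hab'
    have hd : ∀ z ∈ {z : ℂ | P (cx z) (cy z)},
        HasDerivWithinAt (fun w => Ψ w - c * w) 0 {z : ℂ | P (cx z) (cy z)} z := fun z hz => by
      refine HasDerivAt.hasDerivWithinAt ?_
      simpa using! (hderiv z (hP _ _ hz)).sub ((hasDerivAt_id z).const_mul c)
    have := hconv.norm_image_sub_le_of_norm_hasDerivWithin_le (C := 0) hd (by simp)
      (x := (a : ℂ) * t + b) (y := (a' : ℂ) * t + b')
      (by show P _ _; rw [(hcxy a b).1, (hcxy a b).2]; exact hab)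
      (by show P _ _; rw [(hcxy a' b').1, (hcxy a' b').2]; exact hab')
    rw [zero_mul, norm_le_zero_iff, sub_eq_zero] at this
    exact this.symm
  have hlin : ∀ p q r : ℝ, Convex ℝ {z : ℂ | r < p * cx z + q * cy z} := fun p q r => by
    refine convex_halfSpace_gt (f := fun z => p * cx z + q * cy z) ⟨fun u v => ?_, fun s u => ?_⟩ r
    · simp [cx, cy]; ring
    · simp [cx, cy]; ring
  have hbox : ∀ p q : ℝ, Convex ℝ {z : ℂ | (|cx z| < 1 ∧ |cy z| < 1) ∧ 0 < p * cx z + q * cy z} := by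
    intro p q
    have e : {z : ℂ | (|cx z| < 1 ∧ |cy z| < 1) ∧ 0 < p * cx z + q * cy z} =
        (({z | -1 < (1 : ℝ) * cx z + 0 * cy z} ∩ {z | -1 < (-1 : ℝ) * cx z + 0 * cy z}) ∩
        ({z | -1 < (0 : ℝ) * cx z + 1 * cy z} ∩ {z | -1 < (0 : ℝ) * cx z + (-1) * cy z})) ∩
        {z | 0 < p * cx z + q * cy z} := by
      ext z
      simp [abs_lt]
    rw [e]
    exact (((hlin _ _ _).inter (hlin _ _ _)).inter ((hlin _ _ _).inter (hlin _ _ _))).inter
      (hlin _ _ _)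
  have hpiece : ∀ (p q : ℝ) {a b a' b' : ℝ}, |a| < 1 → |b| < 1 → 0 < p * a + q * b →
      |a'| < 1 → |b'| < 1 → 0 < p * a' + q * b' →
      Ψ (a * t + b) - c * (a * t + b) = Ψ (a' * t + b') - c * (a' * t + b') := by
    intro p q a b a' b' ha hb hab ha' hb' hab'
    refine hconst (fun a b => (|a| < 1 ∧ |b| < 1) ∧ 0 < p * a + q * b) (hbox p q)
      (fun a b hab => ⟨hab.1.1, hab.1.2, ?_⟩) ⟨⟨ha, hb⟩, hab⟩ ⟨⟨ha', hb'⟩, hab'⟩
    by_contra h
    push Not at h
    simp [h.1, h.2] at hab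
  have hodd : ∀ z, Ψ (-z) - c * -z = -(Ψ z - c * z) := fun z => by
    simp only [Ψ, neg_div, zetaT_neg]
    ring
  have hh : |(1 / 2 : ℝ)| < 1 ∧ |(-(1 / 2) : ℝ)| < 1 := by norm_num
  set d := Ψ (((1 / 2 : ℝ) : ℂ) * t + (1 / 2 : ℝ)) - c * (((1 / 2 : ℝ) : ℂ) * t + (1 / 2 : ℝ)) with hd
  have hd0 : d = 0 := by
    have h1 := hpiece 0 1 hh.1 hh.1 (by norm_num) hh.2 hh.1 (by norm_num)
    have h2 := hpiece (-1) 0 hh.2 hh.1 (by norm_num) hh.2 hh.2 (by norm_num)
    have h3 := h1.trans h2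
    rw [← hd, show ((-(1 / 2) : ℝ) : ℂ) * t + ((-(1 / 2) : ℝ) : ℂ) =
      -(((1 / 2 : ℝ) : ℂ) * t + ((1 / 2 : ℝ) : ℂ)) by push_cast; ring, hodd, ← hd] at h3
    linear_combination h3 / 2
  have hall : ∀ a b : ℝ, |a| < 1 → |b| < 1 → (a ≠ 0 ∨ b ≠ 0) →
      Ψ (a * t + b) - c * (a * t + b) = 0 := by
    intro a b ha hb hab
    rcases lt_trichotomy a 0 with h | h | h
    · rw [hpiece (-1) 0 ha hb (by linarith) hh.2 hh.1 (by norm_num),
        hpiece 0 1 hh.2 hh.1 (by norm_num) hh.1 hh.1 (by norm_num), ← hd, hd0]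
    · rcases lt_or_gt_of_ne (hab.resolve_left (not_not_intro h)) with h' | h'
      · rw [hpiece 0 (-1) ha hb (by linarith) hh.1 hh.2 (by norm_num),
          hpiece 1 0 hh.1 hh.2 (by norm_num) hh.1 hh.1 (by norm_num), ← hd, hd0]
      · rw [hpiece 0 1 ha hb (by linarith) hh.1 hh.1 (by norm_num), ← hd, hd0]
    · rw [hpiece 1 0 ha hb (by linarith) hh.1 hh.1 (by norm_num), ← hd, hd0]
  -- the increment from `t/2 - 1/2` to `t/2 + 1/2` determines `c`
  have hc0 : c = 0 := by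
    have h1 := hall (1 / 2) (1 / 2) hh.1 hh.1 (by norm_num)
    have h2 := hall (1 / 2) (-(1 / 2)) hh.1 hh.2 (by norm_num)
    push_cast at h1 h2
    simp only [Ψ] at h1 h2
    have e1 : ((1 / 2 : ℂ) * t + 1 / 2) / t = -(1 / 2 + (t' : ℂ) / 2) + 1 := by
      rw [hS]; field_simp; ring
    have e2 : ((1 / 2 : ℂ) * t + -(1 / 2)) / t = 1 / 2 + (t' : ℂ) / 2 := by
      rw [hS]; field_simp
    have e3 : zetaT t ((1 / 2 : ℂ) * t + 1 / 2) = zetaT t ((1 / 2 : ℂ) * t + -(1 / 2)) := by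
      rw [← zetaT_add_one (t : ℂ) ((1 / 2 : ℂ) * t + -(1 / 2))]
      congr 1
      ring
    rw [show zetaT t' (((1 / 2 : ℂ) * t + 1 / 2) / t) = -(1 / 2) by
      rw [e1, zetaT_add_one, zetaT_neg, zetaT_half t'.im_pos]] at h1
    rw [show zetaT t' (((1 / 2 : ℂ) * t + -(1 / 2)) / t) = 1 / 2 by
      rw [e2, zetaT_half t'.im_pos]] at h2
    rw [e3] at h1
    clear_value c
    field_simp at h1 h2
    have h3 : (2 * (t : ℂ)) * c = 0 := by linear_combination h2 - h1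
    exact (mul_eq_zero.mp h3).resolve_left (mul_ne_zero two_ne_zero ht)
  have hfin := hall x y hx hy h
  rw [hc0, zero_mul, sub_zero] at hfin
  simp only [Ψ] at hfin
  field_simp at hfin ⊢
  linear_combination hfin

end Fermat.Agent.DeligneSerre
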